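import Mathlib

set_option autoImplicit false

namespace Fermat.Agent.S23L

/-- Extending a ring automorphism of the polynomial ring on a transcendence basis to `ℂ`. -/
theorem endC_extend {R : Type*} [Field R] [Algebra R ℂ] {ι : Type*} (v : ι → ℂ)
    (hv : IsTranscendenceBasis R v) (θ : MvPolynomial ι R ≃+* MvPolynomial ι R) :
    ∃ σ : ℂ ≃+* ℂ, ∀ P : MvPolynomial ι R,
      σ (MvPolynomial.aeval v P) = MvPolynomial.aeval v (θ P) := by
  let _ := IsAlgClosed.isAlgClosure_of_transcendence_basis v hv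
  let e : Algebra.adjoin R (Set.range v) ≃+* Algebra.adjoin R (Set.range v) :=
    hv.1.aevalEquiv.symm.toRingEquiv.trans (θ.trans hv.1.aevalEquiv.toRingEquiv)
  refine ⟨IsAlgClosure.equivOfEquiv ℂ ℂ e, fun P => ?_⟩
  rw [← hv.1.algebraMap_aevalEquiv, IsAlgClosure.equivOfEquiv_algebraMap,
    ← hv.1.algebraMap_aevalEquiv]
  congr 1
  simp [e]

theorem endC_transcendental (x : ℂ) (hx : Transcendental ℚ x) : ∃ σ : ℂ ≃+* ℂ, σ x ≠ x := by
  classical
  have hs : AlgebraicIndepOn ℚ id ({x} : Set ℂ) :=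
    algebraicIndependent_unique_type_iff.mpr hx
  obtain ⟨t, hst, ht⟩ := exists_isTranscendenceBasis_superset hs
  have hxt : x ∈ t := hst rfl
  let i0 : t := ⟨x, hxt⟩
  let θ0 : MvPolynomial t ℚ →ₐ[ℚ] MvPolynomial t ℚ :=
    MvPolynomial.aeval (fun i => if i = i0 then - MvPolynomial.X i else MvPolynomial.X i)
  have hθ : θ0.comp θ0 = AlgHom.id ℚ _ := by
    apply MvPolynomial.algHom_ext
    intro i
    by_cases hi : i = i0
    · simp [θ0, hi]
    · simp [θ0, hi]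
  let θ : MvPolynomial t ℚ ≃ₐ[ℚ] MvPolynomial t ℚ := AlgEquiv.ofAlgHom θ0 θ0 hθ hθ
  obtain ⟨σ, hσ⟩ := endC_extend _ ht θ.toRingEquiv
  refine ⟨σ, ?_⟩
  have h1 := hσ (MvPolynomial.X i0)
  have h2 : θ.toRingEquiv (MvPolynomial.X i0) = - MvPolynomial.X i0 := by
    simp [θ, θ0]
  rw [h2] at h1
  simp only [MvPolynomial.aeval_X, map_neg] at h1
  have hx0 : x ≠ 0 := by
    rintro rfl
    exact hx isAlgebraic_zero
  intro h3
  have h4 : x = -x := by
    have : σ x = -x := h1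
    rw [h3] at this
    exact this
  apply hx0
  have : (2 : ℂ) * x = 0 := by linear_combination h4
  simpa using this

theorem endC_algebraic (x : ℂ) (hx : IsAlgebraic ℚ x) (hxQ : x ∉ Set.range ((↑) : ℚ → ℂ)) :
    ∃ σ : ℂ ≃+* ℂ, σ x ≠ x := by
  let R := algebraicClosure ℚ ℂ
  let a : R := ⟨x, (mem_algebraicClosure_iff).2 hx⟩
  have ha : a ∉ Set.range (algebraMap ℚ R) := by
    rintro ⟨r, hr⟩
    apply hxQ
    refine ⟨r, ?_⟩
    have := congrArg (fun y : R => (y : ℂ)) hr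
    simpa [a] using this
  have hex : ∃ τ : R ≃ₐ[ℚ] R, τ a ≠ a := by
    by_contra hcon
    push Not at hcon
    have hcl : IsAlgClosure ℚ (algebraicClosure ℚ ℂ) := algebraicClosure.isAlgClosure ℚ ℂ
    have : IsGalois ℚ R := IsAlgClosure.isGalois ℚ (algebraicClosure ℚ ℂ)
    exact ha ((InfiniteGalois.mem_range_algebraMap_iff_fixed a).2 hcon)
  obtain ⟨τ, hτ⟩ := hex
  obtain ⟨s, hs⟩ := exists_isTranscendenceBasis R ℂ
  obtain ⟨σ, hσ⟩ := endC_extend _ hs (MvPolynomial.mapEquiv s τ.toRingEquiv)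
  refine ⟨σ, ?_⟩
  have h1 := hσ (MvPolynomial.C a)
  simp only [MvPolynomial.mapEquiv_apply, MvPolynomial.map_C, MvPolynomial.aeval_C] at h1
  intro h3
  apply hτ
  apply Subtype.ext
  have h5 : σ x = ((τ a : R) : ℂ) := h1
  rw [h3] at h5
  exact h5.symm

theorem exists_ringEquiv_ne (x : ℂ) (hx : x ∉ Set.range ((↑) : ℚ → ℂ)) :
    ∃ σ : ℂ ≃+* ℂ, σ x ≠ x := by
  by_cases h : IsAlgebraic ℚ x
  · exact endC_algebraic x h hx
  · exact endC_transcendental x h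

theorem exists_ringHom_ne (x : ℂ) (hx : x ∉ Set.range ((↑) : ℚ → ℂ)) :
    ∃ σ : ℂ →+* ℂ, σ x ≠ x := by
  obtain ⟨σ, hσ⟩ := exists_ringEquiv_ne x hx
  exact ⟨σ.toRingHom, hσ⟩

end Fermat.Agent.S23L
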