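import Mathlib
import Fermat.Agent.S23.EndC

set_option autoImplicit false

namespace Fermat.Agent.S23L

open Module

/-- Abstract Galois descent: a finite dimensional space with separating coordinates, stable under
all ring endomorphisms of `ℂ` acting on coordinates, is spanned by its rational vectors. -/
theorem span_rational_eq_top {V : Type*} [AddCommGroup V] [Module ℂ V] [FiniteDimensional ℂ V]
    {ι : Type*} (a : ι → (V →ₗ[ℂ] ℂ)) (hsep : ∀ v, (∀ i, a i v = 0) → v = 0)
    (htr : ∀ σ : ℂ →+* ℂ, ∀ v : V, ∃ v' : V, ∀ i, a i v' = σ (a i v)) :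
    Submodule.span ℂ {v : V | ∀ i, ∃ r : ℚ, a i v = (r : ℂ)} = ⊤ := by
  classical
  have hW : Submodule.span ℂ (Set.range a) = (⊤ : Submodule ℂ (Dual ℂ V)) := by
    rw [← Subspace.dualCoannihilator_dualAnnihilator_eq (W := Submodule.span ℂ (Set.range a))]
    have : (Submodule.span ℂ (Set.range a)).dualCoannihilator = ⊥ := by
      rw [eq_bot_iff]
      intro v hv
      rw [Submodule.mem_dualCoannihilator] at hv
      exact hsep v fun i => hv (a i) (Submodule.subset_span ⟨i, rfl⟩)
    rw [this, Submodule.dualAnnihilator_bot]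
  obtain ⟨b, hb, hbspan, hbli⟩ := exists_linearIndependent ℂ (Set.range a)
  let B : Basis b ℂ (Dual ℂ V) := Basis.mk hbli (by
    rw [Subtype.range_coe, hbspan, hW])
  have : Finite b := Module.Finite.finite_basis B
  have : Fintype b := Fintype.ofFinite b
  let e := Module.evalEquiv ℂ V
  let v : Basis b ℂ V := B.dualBasis.map e.symm
  have hv : ∀ (l : b) (φ : Dual ℂ V), φ (v l) = B.dualBasis l φ := by
    intro l φ
    have : e (v l) = B.dualBasis l := by simp [v]
    rw [← this]
    rfl
  rw [eq_top_iff, ← v.span_eq]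
  refine Submodule.span_mono ?_
  rintro _ ⟨l, rfl⟩ i
  by_contra hcon
  have hx : a i (v l) ∉ Set.range ((↑) : ℚ → ℂ) := fun ⟨r, hr⟩ => hcon ⟨r, hr.symm⟩
  obtain ⟨σ, hσ⟩ := exists_ringHom_ne _ hx
  obtain ⟨v', hv'⟩ := htr σ (v l)
  have hvv : v' = v l := by
    have h0 : e (v' - v l) = 0 := by
      refine B.ext fun j => ?_
      obtain ⟨i', hi'⟩ := hb j.2
      have hBj : B j = a i' := by simp [B, hi']
      show (B j) (v' - v l) = 0
      rw [map_sub, hBj, hv' i', ← hBj, hv, Basis.dualBasis_apply_self]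
      split_ifs <;> simp
    exact sub_eq_zero.mp (e.injective (by rw [h0, map_zero]))
  apply hσ
  rw [← hv' i, hvv]

end Fermat.Agent.S23L
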