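import Mathlib

set_option autoImplicit false

namespace Fermat.Agent.S23L

/-- Power series over `ℂ` all of whose coefficients are (images of) integers. -/
def IntPS : Set (PowerSeries ℂ) := {P | ∀ n, ∃ m : ℤ, PowerSeries.coeff n P = (m : ℂ)}

end Fermat.Agent.S23L
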