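import Mathlib
import Fermat.Agent.S23.Defs

set_option autoImplicit false
open PowerSeries

namespace Fermat.Agent.S23L

theorem e3_mem_IntPS_iff (P : PowerSeries ℂ) :
    P ∈ IntPS ↔ ∃ y : PowerSeries ℤ, algebraMap (PowerSeries ℤ) (PowerSeries ℂ) y = P := by
  constructor
  · intro h
    choose m hm using h
    refine ⟨PowerSeries.mk m, ?_⟩
    ext n
    rw [PowerSeries.algebraMap_apply'', PowerSeries.coeff_map, PowerSeries.coeff_mk, hm n]
    simp
  · rintro ⟨y, rfl⟩ n
    refine ⟨PowerSeries.coeff n y, ?_⟩
    rw [PowerSeries.algebraMap_apply'', PowerSeries.coeff_map]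
    simp

theorem e3_algebraMap_injective :
    Function.Injective (algebraMap (PowerSeries ℤ) (PowerSeries ℂ)) := by
  intro a b hab
  ext n
  have := congrArg (PowerSeries.coeff n) hab
  rw [PowerSeries.algebraMap_apply'', PowerSeries.algebraMap_apply'', PowerSeries.coeff_map,
    PowerSeries.coeff_map] at this
  simpa using this

/-- An element of a domain extension which is both a fraction and integral over an integrally
closed domain comes from the base. -/
theorem e3_integral_of_fraction {R S : Type*} [CommRing R] [IsDomain R] [IsIntegrallyClosed R]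
    [CommRing S] [IsDomain S] [Algebra R S] (hRS : Function.Injective (algebraMap R S))
    (x : S) (u w : R) (hw : w ≠ 0) (h : algebraMap R S w * x = algebraMap R S u)
    (hx : IsIntegral R x) : ∃ y : R, algebraMap R S y = x := by
  let K := FractionRing R
  let L := FractionRing S
  have hinjSL : Function.Injective (algebraMap S L) := IsFractionRing.injective S L
  let g0 : R →ₐ[R] L := Algebra.ofId R L
  have hg0 : Function.Injective g0 := by
    intro a b hab
    have h1 : algebraMap S L (algebraMap R S a) = algebraMap S L (algebraMap R S b) := by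
      have := hab
      simpa [g0, Algebra.ofId_apply, IsScalarTower.algebraMap_apply R S L] using this
    exact hRS (hinjSL h1)
  let g : K →ₐ[R] L := IsFractionRing.liftAlgHom hg0
  have hginj : Function.Injective g := g.toRingHom.injective
  let κ : K := algebraMap R K u / algebraMap R K w
  have hwK : algebraMap R K w ≠ 0 := by
    intro h0
    exact hw ((IsFractionRing.injective R K) (by rw [h0, map_zero]))
  have hgκ : g κ = algebraMap S L x := by
    have h1 : g (algebraMap R K w) * g κ = g (algebraMap R K u) := by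
      rw [← map_mul]
      congr 1
      exact mul_div_cancel₀ _ hwK
    have h2 : ∀ a : R, g (algebraMap R K a) = algebraMap S L (algebraMap R S a) := by
      intro a
      rw [AlgHom.commutes, IsScalarTower.algebraMap_apply R S L]
    rw [h2, h2, ← h, map_mul] at h1
    have h3 : algebraMap S L (algebraMap R S w) ≠ 0 := by
      intro h0
      apply hw
      apply hRS
      apply hinjSL
      rw [h0, map_zero, map_zero]
    exact mul_left_cancel₀ h3 h1
  have hκ : IsIntegral R κ := by
    rw [← isIntegral_algHom_iff g hginj, hgκ]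
    exact hx.map (IsScalarTower.toAlgHom R S L)
  obtain ⟨y, hy⟩ := IsIntegrallyClosed.isIntegral_iff.mp hκ
  refine ⟨y, ?_⟩
  apply hinjSL
  rw [← hgκ, ← hy, AlgHom.commutes, IsScalarTower.algebraMap_apply R S L]

/-- `ℤ⟦X⟧` is completely integrally closed in `ℂ⟦X⟧`. -/
theorem mem_IntPS_of_almost_integral (F E : PowerSeries ℂ)
    (_hF : ∀ n, ∃ r : ℚ, PowerSeries.coeff n F = (r : ℂ))
    (hE : E ∈ IntPS) (hE0 : E ≠ 0) (h : ∀ j : ℕ, E * F ^ j ∈ IntPS) : F ∈ IntPS := by
  obtain ⟨w, hw⟩ := (e3_mem_IntPS_iff E).1 hE
  have hw0 : w ≠ 0 := by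
    rintro rfl
    exact hE0 (by rw [← hw, map_zero])
  have : FaithfulSMul (PowerSeries ℤ) (PowerSeries ℂ) :=
    (faithfulSMul_iff_algebraMap_injective _ _).2 e3_algebraMap_injective
  have hai : IsAlmostIntegral (PowerSeries ℤ) F := by
    refine ⟨w, mem_nonZeroDivisors_of_ne_zero hw0, fun n => ?_⟩
    obtain ⟨y, hy⟩ := (e3_mem_IntPS_iff _).1 (h n)
    exact ⟨y, by rw [hy, Algebra.smul_def, hw]⟩
  have hint : IsIntegral (PowerSeries ℤ) F := hai.isIntegral
  obtain ⟨u, hu⟩ := (e3_mem_IntPS_iff _).1 (h 1)
  rw [pow_one] at hu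
  obtain ⟨y, hy⟩ := e3_integral_of_fraction e3_algebraMap_injective F u w hw0 (by rw [hw, hu]) hint
  exact (e3_mem_IntPS_iff F).2 ⟨y, hy⟩

end Fermat.Agent.S23L
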