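import Mathlib
import Fermat.Agent.S23.Defs
import Fermat.Prelude.Thm_CongruenceSubgroup_one_mem_strictPeriods_Gamma0

set_option autoImplicit false

open UpperHalfPlane ModularForm CongruenceSubgroup Function
open scoped MatrixGroups Manifold

namespace Fermat.Agent.S23L

/-- Functions on `ℍ` that are 1-periodic, holomorphic and bounded at `i∞`. -/
structure IsQF (f : ℍ → ℂ) : Prop where
  per : Periodic (f ∘ ofComplex) 1
  holo : MDiff f
  bdd : IsBoundedAtImInfty f

namespace IsQF

variable {f g : ℍ → ℂ}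

theorem analytic (hf : IsQF f) : AnalyticAt ℂ (cuspFunction 1 f) 0 :=
  analyticAt_cuspFunction_zero one_pos (by simpa using hf.per) hf.holo hf.bdd

theorem zero : IsQF (0 : ℍ → ℂ) :=
  ⟨fun _ => rfl, mdifferentiable_const, Filter.const_boundedAtFilter _ 0⟩

theorem const (c : ℂ) : IsQF (fun _ => c : ℍ → ℂ) :=
  ⟨fun _ => rfl, mdifferentiable_const, Filter.const_boundedAtFilter _ c⟩

theorem one : IsQF (1 : ℍ → ℂ) := const 1

theorem add (hf : IsQF f) (hg : IsQF g) : IsQF (f + g) :=
  ⟨hf.per.add hg.per, hf.holo.add hg.holo, hf.bdd.add hg.bdd⟩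

theorem mul (hf : IsQF f) (hg : IsQF g) : IsQF (f * g) :=
  ⟨hf.per.mul hg.per, hf.holo.mul hg.holo, hf.bdd.mul hg.bdd⟩

theorem smul (c : ℂ) (hf : IsQF f) : IsQF (c • f) := by
  have : c • f = (fun _ => c : ℍ → ℂ) * f := by ext; simp
  rw [this]; exact (const c).mul hf

theorem neg (hf : IsQF f) : IsQF (-f) := by
  have : -f = (-1 : ℂ) • f := by ext; simp
  rw [this]; exact hf.smul _

theorem sub (hf : IsQF f) (hg : IsQF g) : IsQF (f - g) := by
  rw [sub_eq_add_neg]; exact hf.add hg.neg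

theorem pow (hf : IsQF f) (n : ℕ) : IsQF (f ^ n) := by
  induction n with
  | zero => simpa using one
  | succ n ih => rw [pow_succ]; exact ih.mul hf

theorem sum {ι : Type*} (s : Finset ι) {F : ι → ℍ → ℂ} (h : ∀ i ∈ s, IsQF (F i)) :
    IsQF (∑ i ∈ s, F i) := by
  classical
  induction s using Finset.induction_on with
  | empty => simpa using zero
  | insert a s ha ih =>
    rw [Finset.sum_insert ha]
    exact (h a (Finset.mem_insert_self _ _)).add
      (ih fun i hi => h i (Finset.mem_insert_of_mem hi))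

theorem of_modularForm {Γ : Subgroup (GL (Fin 2) ℝ)} [Γ.IsArithmetic] {k : ℤ} {F : Type*}
    [FunLike F ℍ ℂ] [ModularFormClass F Γ k] (h1 : (1 : ℝ) ∈ Γ.strictPeriods) (f : F) :
    IsQF (f : ℍ → ℂ) :=
  ⟨by simpa using SlashInvariantFormClass.periodic_comp_ofComplex f h1, ModularFormClass.holo f,
    ModularFormClass.bdd_at_infty f⟩

theorem of_levelOne {k : ℤ} (f : ModularForm 𝒮ℒ k) : IsQF (f : ℍ → ℂ) :=
  of_modularForm (by simp) f

theorem of_levelOne_cusp {k : ℤ} (f : CuspForm 𝒮ℒ k) : IsQF (f : ℍ → ℂ) :=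
  of_modularForm (by simp) f

theorem of_Gamma0 {N : ℕ} [NeZero N] {k : ℤ} (f : ModularForm (Gamma0 N) k) : IsQF (f : ℍ → ℂ) :=
  of_modularForm (CongruenceSubgroup.one_mem_strictPeriods_Gamma0 N) f

theorem of_Gamma0_cusp {N : ℕ} [NeZero N] {k : ℤ} (f : CuspForm (Gamma0 N) k) :
    IsQF (f : ℍ → ℂ) :=
  of_modularForm (CongruenceSubgroup.one_mem_strictPeriods_Gamma0 N) f

end IsQF

/-- abbreviation for the `q`-expansion w.r.t. period 1 -/
noncomputable abbrev qx (f : ℍ → ℂ) : PowerSeries ℂ := qExpansion 1 f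

variable {f g : ℍ → ℂ}

theorem qx_add (hf : IsQF f) (hg : IsQF g) : qx (f + g) = qx f + qx g :=
  qExpansion_add hf.analytic hg.analytic

theorem qx_sub (hf : IsQF f) (hg : IsQF g) : qx (f - g) = qx f - qx g :=
  qExpansion_sub hf.analytic hg.analytic

theorem qx_mul (hf : IsQF f) (hg : IsQF g) : qx (f * g) = qx f * qx g :=
  qExpansion_mul hf.analytic hg.analytic

theorem qx_smul (c : ℂ) (hf : IsQF f) : qx (c • f) = c • qx f :=
  qExpansion_smul hf.analytic c

theorem qx_zero : qx 0 = 0 := qExpansion_zero 1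

theorem qx_one : qx 1 = 1 := qExpansion_one 1

theorem qx_pow (hf : IsQF f) (n : ℕ) : qx (f ^ n) = qx f ^ n := by
  induction n with
  | zero => simpa using qx_one
  | succ n ih => rw [pow_succ, pow_succ, qx_mul (hf.pow n) hf, ih]

theorem qx_sum {ι : Type*} (s : Finset ι) {F : ι → ℍ → ℂ} (h : ∀ i ∈ s, IsQF (F i)) :
    qx (∑ i ∈ s, F i) = ∑ i ∈ s, qx (F i) := by
  classical
  induction s using Finset.induction_on with
  | empty => simpa using qx_zero
  | insert a s ha ih =>
    rw [Finset.sum_insert ha, Finset.sum_insert ha,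
      qx_add (h a (Finset.mem_insert_self _ _))
        (IsQF.sum s fun i hi => h i (Finset.mem_insert_of_mem hi)),
      ih fun i hi => h i (Finset.mem_insert_of_mem hi)]

theorem qx_eq_zero_iff (hf : IsQF f) : qx f = 0 ↔ f = 0 :=
  qExpansion_eq_zero_iff one_pos (by simpa using hf.per) hf.holo hf.bdd

theorem qx_injective (hf : IsQF f) (hg : IsQF g) (h : qx f = qx g) : f = g := by
  have := (qx_eq_zero_iff (hf.sub hg)).mp (by rw [qx_sub hf hg, h, sub_self])
  exact sub_eq_zero.mp this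

end Fermat.Agent.S23L
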