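import Mathlib
import Fermat.Agent.S23.QF

set_option autoImplicit false

open UpperHalfPlane ModularForm CongruenceSubgroup Function EisensteinSeries
open scoped MatrixGroups Manifold

namespace Fermat.Agent.S23L

/-! ### integral power series -/

theorem IntPS_zero : (0 : PowerSeries ℂ) ∈ IntPS := fun _ => ⟨0, by simp⟩

theorem IntPS_one : (1 : PowerSeries ℂ) ∈ IntPS := fun n => by
  rw [PowerSeries.coeff_one]
  split_ifs
  · exact ⟨1, by simp⟩
  · exact ⟨0, by simp⟩

theorem IntPS_add {a b : PowerSeries ℂ} (ha : a ∈ IntPS) (hb : b ∈ IntPS) : a + b ∈ IntPS :=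
  fun n => by
    obtain ⟨x, hx⟩ := ha n
    obtain ⟨y, hy⟩ := hb n
    exact ⟨x + y, by simp [hx, hy]⟩

theorem IntPS_neg {a : PowerSeries ℂ} (ha : a ∈ IntPS) : -a ∈ IntPS :=
  fun n => by
    obtain ⟨x, hx⟩ := ha n
    exact ⟨-x, by simp [hx]⟩

theorem IntPS_mul {a b : PowerSeries ℂ} (ha : a ∈ IntPS) (hb : b ∈ IntPS) : a * b ∈ IntPS :=
  fun n => by
    choose x hx using ha
    choose y hy using hb
    refine ⟨∑ p ∈ Finset.HasAntidiagonal.antidiagonal n, x p.1 * y p.2, ?_⟩
    rw [PowerSeries.coeff_mul]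
    push_cast
    exact Finset.sum_congr rfl fun p _ => by rw [hx, hy]

theorem IntPS_pow {a : PowerSeries ℂ} (ha : a ∈ IntPS) (n : ℕ) : a ^ n ∈ IntPS := by
  induction n with
  | zero => simpa using IntPS_one
  | succ n ih => rw [pow_succ]; exact IntPS_mul ih ha

/-- The `ℂ`-span of the integral power series. -/
def SpanInt : Submodule ℂ (PowerSeries ℂ) := Submodule.span ℂ IntPS

theorem SpanInt_of_IntPS {a : PowerSeries ℂ} (ha : a ∈ IntPS) : a ∈ SpanInt :=
  Submodule.subset_span ha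

theorem SpanInt_mul {a b : PowerSeries ℂ} (ha : a ∈ SpanInt) (hb : b ∈ SpanInt) :
    a * b ∈ SpanInt := by
  have h := Submodule.mul_mem_mul ha hb
  rw [SpanInt, Submodule.span_mul_span] at h
  refine Submodule.span_mono ?_ h
  rintro _ ⟨x, hx, y, hy, rfl⟩
  exact IntPS_mul hx hy

theorem SpanInt_pow {a : PowerSeries ℂ} (ha : a ∈ SpanInt) (n : ℕ) : a ^ n ∈ SpanInt := by
  induction n with
  | zero => simpa using SpanInt_of_IntPS IntPS_one
  | succ n ih => rw [pow_succ]; exact SpanInt_mul ih ha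

/-! ### Eisenstein series and the discriminant -/

theorem qx_E_map (σ : ℂ →+* ℂ) {n : ℕ} (hn : 3 ≤ n) (he : Even n) :
    (qx (E hn)).map σ = qx (E hn) := by
  ext m
  rw [PowerSeries.coeff_map, E_qExpansion_coeff hn he]
  split_ifs
  · simp
  · simp only [map_mul, map_neg, map_div₀, map_natCast, map_ratCast, map_ofNat]

theorem qx_E_mem (n : ℕ) (hn : 3 ≤ n) (he : Even n) : qx (E hn) ∈ SpanInt := by
  have h : qx (E hn) = (1 : ℂ) • (1 : PowerSeries ℂ) + (-(2 * (n : ℂ) / (bernoulli n : ℂ))) •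
      PowerSeries.mk (fun m => if m = 0 then (0 : ℂ) else ((ArithmeticFunction.sigma (n - 1) m : ℕ) : ℂ)) := by
    ext m
    rw [E_qExpansion_coeff hn he]
    simp only [one_smul, map_add, PowerSeries.coeff_one, PowerSeries.coeff_smul,
      PowerSeries.coeff_mk, smul_eq_mul]
    split_ifs <;> simp
  rw [h]
  refine SpanInt.add_mem (SpanInt.smul_mem _ (SpanInt_of_IntPS IntPS_one))
    (SpanInt.smul_mem _ (SpanInt_of_IntPS fun m => ?_))
  rw [PowerSeries.coeff_mk]
  split_ifs
  · exact ⟨0, by simp⟩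
  · exact ⟨(ArithmeticFunction.sigma (n - 1) m : ℕ), by simp⟩

theorem qx_discriminant :
    qx discriminant = (1 / 1728 : ℂ) • (qx E₄ ^ 3 - qx E₆ ^ 2) := by
  have h : (discriminant : ℍ → ℂ) = (1 / 1728 : ℂ) • ((E₄ : ℍ → ℂ) ^ 3 - (E₆ : ℍ → ℂ) ^ 2) := by
    ext z
    rw [discriminant_eq_E₄_cube_sub_E₆_sq z]
    simp
    ring
  have h4 := IsQF.of_levelOne E₄
  have h6 := IsQF.of_levelOne E₆
  rw [h, qx_smul _ ((h4.pow 3).sub (h6.pow 2)), qx_sub (h4.pow 3) (h6.pow 2), qx_pow h4, qx_pow h6]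

theorem qx_discriminant_map (σ : ℂ →+* ℂ) : (qx discriminant).map σ = qx discriminant := by
  have h4 : (qx E₄).map σ = qx E₄ := qx_E_map σ _ ⟨2, rfl⟩
  have h6 : (qx E₆).map σ = qx E₆ := qx_E_map σ _ ⟨3, rfl⟩
  rw [qx_discriminant]
  ext m
  rw [PowerSeries.coeff_map, PowerSeries.coeff_smul, smul_eq_mul,
    map_mul, ← PowerSeries.coeff_map, map_sub, map_pow, map_pow, h4, h6]
  simp only [map_div₀, map_one, map_ofNat]

theorem qx_discriminant_mem : qx discriminant ∈ SpanInt := by
  rw [qx_discriminant]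
  exact SpanInt.smul_mem _ (SpanInt.sub_mem (SpanInt_pow (qx_E_mem 4 _ ⟨2, rfl⟩) 3)
    (SpanInt_pow (qx_E_mem 6 _ ⟨3, rfl⟩) 2))

/-! ### the main induction -/

/-- the property we prove for all level one forms -/
def LvlGood {K : ℤ} (A : ModularForm 𝒮ℒ K) : Prop :=
  (∀ σ : ℂ →+* ℂ, ∃ A' : ModularForm 𝒮ℒ K, qx A' = (qx A).map σ) ∧ qx A ∈ SpanInt

theorem lvlGood_zero (K : ℤ) : LvlGood (0 : ModularForm 𝒮ℒ K) := by
  refine ⟨fun σ => ⟨0, ?_⟩, ?_⟩
  · simp [qx, qExpansion_zero]
  · simp [qx, qExpansion_zero]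

theorem lvlGood_aux (n : ℕ) : ∀ (K : ℤ), K ≤ n → ∀ A : ModularForm 𝒮ℒ K, LvlGood A := by
  induction n with
  | zero =>
    intro K hK A
    rcases lt_or_eq_of_le hK with hK | hK
    · have : A = 0 := by
        have := rank_zero_iff_forall_zero.mp (levelOne_neg_weight_rank_zero (by simpa using hK)) A
        exact this
      rw [this]; exact lvlGood_zero K
    · simp only [CharP.cast_eq_zero] at hK
      subst hK
      obtain ⟨c, hc⟩ := ModularFormClass.levelOne_weight_zero_const A
      have hq : ∀ c : ℂ, qx (Function.const ℍ c) = PowerSeries.C c := by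
        intro c
        have : (Function.const ℍ c : ℍ → ℂ) = c • (1 : ℍ → ℂ) := by ext; simp
        rw [this, qx_smul _ IsQF.one, qx_one]
        ext m; simp [PowerSeries.coeff_C, PowerSeries.coeff_one]
      refine ⟨fun σ => ⟨ModularForm.const (σ c), ?_⟩, ?_⟩
      · rw [hc, hq, ModularForm.coe_const, hq]
        simp
      · rw [hc, hq]
        have : (PowerSeries.C c : PowerSeries ℂ) = c • 1 := by
          ext m; simp [PowerSeries.coeff_C, PowerSeries.coeff_one]
        rw [this]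
        exact SpanInt.smul_mem _ (SpanInt_of_IntPS IntPS_one)
  | succ n ih =>
    intro K hK A
    rcases lt_or_ge K 3 with hK3 | hK3
    · -- small weights
      rcases lt_or_ge K 1 with hK1 | hK1
      · exact ih K (by omega) A
      · have : A = 0 := by
          rcases (by omega : K = 1 ∨ K = 2) with rfl | rfl
          · exact levelOne_odd_weight_eq_zero (by decide) A
          · exact rank_zero_iff_forall_zero.mp levelOne_weight_two_rank_zero A
        rw [this]; exact lvlGood_zero K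
    · rcases Int.even_or_odd K with he | ho
      swap
      · rw [levelOne_odd_weight_eq_zero ho A]; exact lvlGood_zero K
      obtain ⟨m, rfl⟩ := Int.eq_ofNat_of_zero_le (by omega : 0 ≤ K)
      have hm : 3 ≤ m := by exact_mod_cast hK3
      have hme : Even m := by exact_mod_cast he
      set a₀ := (qx A).coeff 0 with ha₀
      have hE0 : (qx (E hm)).coeff 0 = 1 := E_qExpansion_coeff_zero hm hme
      set A₁ : ModularForm 𝒮ℒ m := A - a₀ • E hm with hA₁
      have hcusp : (qExpansion 1 A₁).coeff 0 = 0 :=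
        (isCuspForm_iff_coeffZero_eq_zero _).mp (sub_smul_isCuspForm A (E hm) hE0)
      set B := CuspForm.discriminantEquiv (toCuspForm A₁ hcusp) with hB
      have hqA₁ : qx A₁ = qx discriminant * qx B :=
        qExpansion_eq_qExpansion_discriminant_mul A₁ hcusp
      have hA : (A : ℍ → ℂ) = a₀ • (E hm : ℍ → ℂ) + (A₁ : ℍ → ℂ) := by
        ext z; simp [hA₁]
      have hqA : qx A = a₀ • qx (E hm) + qx discriminant * qx B := by
        rw [hA, qx_add ((IsQF.of_levelOne _).smul _) (IsQF.of_levelOne _),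
          qx_smul _ (IsQF.of_levelOne _), hqA₁]
      obtain ⟨hB1, hB2⟩ := ih ((m : ℤ) - 12) (by push_cast at hK; omega) B
      refine ⟨fun σ => ?_, ?_⟩
      · obtain ⟨B', hB'⟩ := hB1 σ
        refine ⟨σ a₀ • E hm + CuspForm.toModularFormₗ (CuspForm.ofMulDiscriminant B'), ?_⟩
        have h1 : ((σ a₀ • E hm + CuspForm.toModularFormₗ (CuspForm.ofMulDiscriminant B') :
            ModularForm 𝒮ℒ m) : ℍ → ℂ) = σ a₀ • (E hm : ℍ → ℂ) + (discriminant : ℍ → ℂ) * B' := by
          ext z; simp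
        have hD : IsQF (discriminant : ℍ → ℂ) := IsQF.of_levelOne_cusp CuspForm.discriminant
        rw [h1, qx_add ((IsQF.of_levelOne _).smul _) (hD.mul (IsQF.of_levelOne _)),
          qx_smul _ (IsQF.of_levelOne _), qx_mul hD (IsQF.of_levelOne _), hB', hqA, map_add,
          map_mul, qx_discriminant_map]
        congr 1
        ext j
        have hEj : σ ((qx (E hm)).coeff j) = (qx (E hm)).coeff j := by
          conv_rhs => rw [← qx_E_map σ hm hme]
          rw [PowerSeries.coeff_map]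
        rw [PowerSeries.coeff_map, PowerSeries.coeff_smul, PowerSeries.coeff_smul, smul_eq_mul,
          smul_eq_mul, map_mul, hEj]
      · rw [hqA]
        exact SpanInt.add_mem (SpanInt.smul_mem _ (qx_E_mem m hm hme))
          (SpanInt_mul qx_discriminant_mem hB2)

theorem levelOne_transport (σ : ℂ →+* ℂ) {K : ℤ} (A : ModularForm 𝒮ℒ K) :
    ∃ A' : ModularForm 𝒮ℒ K, qExpansion 1 A' = (qExpansion 1 A).map σ :=
  (lvlGood_aux K.toNat K (Int.self_le_toNat K) A).1 σ

theorem levelOne_qExpansion_mem_span {K : ℤ} (A : ModularForm 𝒮ℒ K) :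
    qExpansion 1 A ∈ Submodule.span ℂ IntPS :=
  (lvlGood_aux K.toNat K (Int.self_le_toNat K) A).2

end Fermat.Agent.S23L
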