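import Mathlib
import Fermat.Agent.S23.LO
import Fermat.Agent.S23.E3

set_option autoImplicit false

open PowerSeries

namespace Fermat.Agent.S23L

/-- power series with rational coefficients -/
def RatPS : Set (PowerSeries ℂ) := {P | ∀ n, ∃ r : ℚ, PowerSeries.coeff n P = (r : ℂ)}

/-- apply a `ℚ`-linear functional coefficientwise -/
noncomputable def piStar (π : ℂ →ₗ[ℚ] ℚ) (P : PowerSeries ℂ) : PowerSeries ℂ :=
  PowerSeries.mk fun n => ((π (PowerSeries.coeff n P) : ℚ) : ℂ)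

@[simp] theorem coeff_piStar (π : ℂ →ₗ[ℚ] ℚ) (P : PowerSeries ℂ) (n : ℕ) :
    PowerSeries.coeff n (piStar π P) = ((π (PowerSeries.coeff n P) : ℚ) : ℂ) := by
  simp [piStar]

theorem piStar_add (π : ℂ →ₗ[ℚ] ℚ) (P Q : PowerSeries ℂ) :
    piStar π (P + Q) = piStar π P + piStar π Q := by
  ext n; simp

theorem piStar_zero (π : ℂ →ₗ[ℚ] ℚ) : piStar π 0 = 0 := by
  ext n; simp

theorem piStar_sum (π : ℂ →ₗ[ℚ] ℚ) {ι : Type*} (s : Finset ι) (P : ι → PowerSeries ℂ) :
    piStar π (∑ i ∈ s, P i) = ∑ i ∈ s, piStar π (P i) := by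
  classical
  induction s using Finset.induction_on with
  | empty => simpa using piStar_zero π
  | insert a s ha ih => rw [Finset.sum_insert ha, Finset.sum_insert ha, piStar_add, ih]

theorem pi_ratCast_mul (π : ℂ →ₗ[ℚ] ℚ) (r : ℚ) (x : ℂ) : π ((r : ℂ) * x) = r * π x := by
  have : (r : ℂ) * x = r • x := by rw [Rat.smul_def]
  rw [this, map_smul, smul_eq_mul]

theorem piStar_mul_rat (π : ℂ →ₗ[ℚ] ℚ) {R : PowerSeries ℂ} (hR : R ∈ RatPS) (P : PowerSeries ℂ) :
    piStar π (P * R) = piStar π P * R := by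
  choose r hr using hR
  ext n
  rw [coeff_piStar, PowerSeries.coeff_mul, PowerSeries.coeff_mul, map_sum]
  push_cast
  refine Finset.sum_congr rfl fun p _ => ?_
  rw [coeff_piStar, hr, mul_comm, pi_ratCast_mul]
  push_cast
  ring

theorem RatPS_of_IntPS {P : PowerSeries ℂ} (h : P ∈ IntPS) : P ∈ RatPS := fun n => by
  obtain ⟨m, hm⟩ := h n
  exact ⟨m, by simp [hm]⟩

theorem RatPS_one : (1 : PowerSeries ℂ) ∈ RatPS := RatPS_of_IntPS IntPS_one

theorem RatPS_mul {a b : PowerSeries ℂ} (ha : a ∈ RatPS) (hb : b ∈ RatPS) : a * b ∈ RatPS :=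
  fun n => by
    choose x hx using ha
    choose y hy using hb
    refine ⟨∑ p ∈ Finset.HasAntidiagonal.antidiagonal n, x p.1 * y p.2, ?_⟩
    rw [PowerSeries.coeff_mul]
    push_cast
    exact Finset.sum_congr rfl fun p _ => by rw [hx, hy]

theorem RatPS_pow {a : PowerSeries ℂ} (ha : a ∈ RatPS) (n : ℕ) : a ^ n ∈ RatPS := by
  induction n with
  | zero => simpa using RatPS_one
  | succ n ih => rw [pow_succ]; exact RatPS_mul ih ha

theorem IntPS_natCast_smul {a : PowerSeries ℂ} (ha : a ∈ IntPS) (M : ℕ) : (M : ℂ) • a ∈ IntPS :=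
  fun n => by
    obtain ⟨x, hx⟩ := ha n
    exact ⟨M * x, by simp [hx]⟩

theorem IntPS_sum {ι : Type*} (s : Finset ι) {P : ι → PowerSeries ℂ} (h : ∀ i ∈ s, P i ∈ IntPS) :
    ∑ i ∈ s, P i ∈ IntPS := by
  classical
  induction s using Finset.induction_on with
  | empty => simpa using IntPS_zero
  | insert a s ha ih =>
    rw [Finset.sum_insert ha]
    exact IntPS_add (h a (Finset.mem_insert_self _ _))
      (ih fun i hi => h i (Finset.mem_insert_of_mem hi))

/-- after applying `π`, an element of the span of integral series has bounded denominators -/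
theorem exists_smul_piStar_mem (π : ℂ →ₗ[ℚ] ℚ) {P : PowerSeries ℂ} (hP : P ∈ SpanInt) :
    ∃ M : ℕ, M ≠ 0 ∧ (M : ℂ) • piStar π P ∈ IntPS := by
  suffices h : ∀ l : ℂ, ∃ M : ℕ, M ≠ 0 ∧ (M : ℂ) • piStar π (l • P) ∈ IntPS by
    simpa using h 1
  induction hP using Submodule.span_induction with
  | mem b hb =>
    intro l
    refine ⟨(π l).den, (π l).den_nz, fun n => ?_⟩
    obtain ⟨m, hm⟩ := hb n
    refine ⟨(π l).num * m, ?_⟩
    have h1 : π (l * (m : ℂ)) = (m : ℚ) * π l := by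
      have : l * (m : ℂ) = ((m : ℚ) : ℂ) * l := by push_cast; ring
      rw [this, pi_ratCast_mul]
    rw [PowerSeries.coeff_smul, coeff_piStar, PowerSeries.coeff_smul, hm, smul_eq_mul, smul_eq_mul, h1]
    have h2 : (((π l).den : ℚ) : ℂ) * ((π l : ℚ) : ℂ) = (((π l).num : ℚ) : ℂ) := by
      rw [← Rat.cast_mul, Rat.den_mul_eq_num]
    push_cast at h2 ⊢
    linear_combination (m : ℂ) * h2
  | zero => intro l; exact ⟨1, one_ne_zero, by simpa [piStar_zero] using IntPS_zero⟩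
  | add x y _ _ hx hy =>
    intro l
    obtain ⟨M1, h1, h1'⟩ := hx l
    obtain ⟨M2, h2, h2'⟩ := hy l
    refine ⟨M1 * M2, mul_ne_zero h1 h2, ?_⟩
    rw [smul_add, piStar_add, smul_add]
    refine IntPS_add ?_ ?_
    · have := IntPS_natCast_smul h1' M2
      rwa [smul_smul, mul_comm, ← Nat.cast_mul] at this
    · have := IntPS_natCast_smul h2' M1
      rwa [smul_smul, ← Nat.cast_mul] at this
  | smul a x _ hx =>
    intro l
    rw [smul_smul]
    exact hx (l * a)

theorem exists_pi_ne_zero (x : ℂ) (hx : x ≠ 0) : ∃ π : ℂ →ₗ[ℚ] ℚ, π x ≠ 0 := by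
  by_contra h
  push Not at h
  exact hx ((Module.forall_dual_apply_eq_zero_iff ℚ x).mp h)

theorem exists_pi_one : ∃ π : ℂ →ₗ[ℚ] ℚ, π 1 = 1 := by
  obtain ⟨π, hπ⟩ := exists_pi_ne_zero 1 one_ne_zero
  exact ⟨(π 1)⁻¹ • π, by simp [hπ]⟩

end Fermat.Agent.S23L
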