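import Mathlib
import Fermat.Agent.S23.Pi

set_option autoImplicit false

open PowerSeries

namespace Fermat.Agent.S23L

theorem piStar_one {π : ℂ →ₗ[ℚ] ℚ} (h : π 1 = 1) : piStar π 1 = 1 := by
  ext n
  rw [coeff_piStar, PowerSeries.coeff_one]
  split_ifs <;> simp [h]

/-- Bounded denominators: the algebraic core. -/
theorem exists_smul_mem_IntPS (F : PowerSeries ℂ) (hF : F ∈ RatPS) (μ : ℕ)
    (C : ℕ → PowerSeries ℂ) (hC : ∀ i, C i ∈ SpanInt)
    (hmon : F ^ μ + ∑ i ∈ Finset.range μ, C (i + 1) * F ^ (μ - (i + 1)) = 0)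
    (Dn Nm : PowerSeries ℂ) (hDn : Dn ∈ SpanInt) (hNm : Nm ∈ SpanInt) (hDn0 : Dn ≠ 0)
    (hFD : F * Dn = Nm) : ∃ M : ℕ, M ≠ 0 ∧ (M : ℂ) • F ∈ IntPS := by
  classical
  obtain ⟨π1, hπ1⟩ := exists_pi_one
  -- rational monic equation
  have e1 : F ^ μ + ∑ i ∈ Finset.range μ, piStar π1 (C (i + 1)) * F ^ (μ - (i + 1)) = 0 := by
    have h := congrArg (piStar π1) hmon
    rw [piStar_zero, piStar_add, piStar_sum] at h
    rw [← h]
    congr 1
    · conv_rhs => rw [← one_mul (F ^ μ), piStar_mul_rat π1 (RatPS_pow hF μ), piStar_one hπ1, one_mul]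
    · exact Finset.sum_congr rfl fun i _ => (piStar_mul_rat π1 (RatPS_pow hF _) _).symm
  choose Mi hMi0 hMi using fun i : ℕ => exists_smul_piStar_mem π1 (hC (i + 1))
  set M : ℕ := ∏ i ∈ Finset.range μ, Mi i with hM
  have hM0 : M ≠ 0 := Finset.prod_ne_zero_iff.mpr fun i _ => hMi0 i
  have hMC : ∀ i ∈ Finset.range μ, (M : ℂ) • piStar π1 (C (i + 1)) ∈ IntPS := by
    intro i hi
    have h1 : M = (∏ j ∈ (Finset.range μ).erase i, Mi j) * Mi i := by
      rw [hM, Finset.prod_erase_mul _ _ hi]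
    have := IntPS_natCast_smul (hMi i) (∏ j ∈ (Finset.range μ).erase i, Mi j)
    rwa [smul_smul, ← Nat.cast_mul, ← h1] at this
  set G : PowerSeries ℂ := (M : ℂ) • F with hG
  set A : ℕ → PowerSeries ℂ := fun i => ((M : ℂ) ^ (i + 1)) • piStar π1 (C (i + 1)) with hA
  have hAint : ∀ i ∈ Finset.range μ, A i ∈ IntPS := by
    intro i hi
    have := IntPS_natCast_smul (hMC i hi) (M ^ i)
    rw [smul_smul] at this
    simpa [hA, pow_succ] using this
  have e2 : G ^ μ + ∑ i ∈ Finset.range μ, A i * G ^ (μ - (i + 1)) = 0 := by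
    have h1 : G ^ μ + ∑ i ∈ Finset.range μ, A i * G ^ (μ - (i + 1))
        = ((M : ℂ) ^ μ) • (F ^ μ + ∑ i ∈ Finset.range μ, piStar π1 (C (i + 1)) * F ^ (μ - (i + 1))) := by
      rw [smul_add, Finset.smul_sum, hG, smul_pow]
      congr 1
      refine Finset.sum_congr rfl fun i hi => ?_
      have hi' : i + 1 ≤ μ := Finset.mem_range.mp hi
      have h2 : (M : ℂ) ^ μ = (M : ℂ) ^ (i + 1) * (M : ℂ) ^ (μ - (i + 1)) := by
        rw [← pow_add]; congr 1; omega
      rw [hA, smul_pow, smul_mul_smul_comm, h2]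
    rw [h1, e1, smul_zero]
  -- the denominator
  obtain ⟨n0, hn0⟩ : ∃ n, PowerSeries.coeff n Dn ≠ 0 := by
    by_contra h
    push Not at h
    exact hDn0 (PowerSeries.ext fun n => by simpa using h n)
  obtain ⟨π2, hπ2⟩ := exists_pi_ne_zero _ hn0
  have e3 : F * piStar π2 Dn = piStar π2 Nm := by
    rw [← hFD, mul_comm F Dn, piStar_mul_rat π2 hF, mul_comm]
  have hD00 : piStar π2 Dn ≠ 0 := by
    intro h
    have := congrArg (PowerSeries.coeff n0) h
    rw [coeff_piStar] at this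
    simp at this
    exact hπ2 this
  obtain ⟨M1, hM1, hM1'⟩ := exists_smul_piStar_mem π2 hDn
  obtain ⟨M2, hM2, hM2'⟩ := exists_smul_piStar_mem π2 hNm
  set D : PowerSeries ℂ := ((M2 : ℂ) * (M1 : ℂ)) • piStar π2 Dn with hD
  have hDint : D ∈ IntPS := by
    have := IntPS_natCast_smul hM1' M2
    rwa [smul_smul] at this
  have hD0 : D ≠ 0 := by
    rw [hD]
    refine smul_ne_zero (mul_ne_zero ?_ ?_) hD00 <;> exact_mod_cast ‹_›
  have hDG : D * G ∈ IntPS := by
    have h1 : D * G = ((M : ℂ) * (M1 : ℂ)) • ((M2 : ℂ) • piStar π2 Nm) := by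
      rw [← e3, hD, hG, smul_mul_smul_comm, smul_smul, mul_comm F]
      congr 1
      ring
    rw [h1, ← Nat.cast_mul]
    exact IntPS_natCast_smul hM2' _
  have key : ∀ j : ℕ, D ^ (μ - 1) * G ^ j ∈ IntPS := by
    intro j
    induction j using Nat.strong_induction_on with
    | _ j ih =>
      rcases lt_or_ge j μ with hj | hj
      · have h1 : D ^ (μ - 1) * G ^ j = D ^ (μ - 1 - j) * (D * G) ^ j := by
          rw [mul_pow, ← mul_assoc, ← pow_add]; congr 2; omega
        rw [h1]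
        exact IntPS_mul (IntPS_pow hDint _) (IntPS_pow hDG _)
      · have h1 : G ^ μ = -∑ i ∈ Finset.range μ, A i * G ^ (μ - (i + 1)) :=
          eq_neg_of_add_eq_zero_left e2
        have h2 : D ^ (μ - 1) * G ^ j
            = -∑ i ∈ Finset.range μ, A i * (D ^ (μ - 1) * G ^ (j - (i + 1))) := by
          have h3 : G ^ j = G ^ (j - μ) * G ^ μ := by rw [← pow_add]; congr 1; omega
          rw [h3, h1, mul_neg, mul_neg, Finset.mul_sum, Finset.mul_sum]
          congr 1
          refine Finset.sum_congr rfl fun i hi => ?_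
          have hi' : i + 1 ≤ μ := Finset.mem_range.mp hi
          have h4 : G ^ (j - (i + 1)) = G ^ (j - μ) * G ^ (μ - (i + 1)) := by
            rw [← pow_add]; congr 1; omega
          rw [h4]; ring
        rw [h2]
        refine IntPS_neg (IntPS_sum _ fun i hi => IntPS_mul (hAint i hi) (ih _ ?_))
        have hi' : i + 1 ≤ μ := Finset.mem_range.mp hi
        omega
  refine ⟨M, hM0, mem_IntPS_of_almost_integral G (D ^ (μ - 1)) ?_ (IntPS_pow hDint _)
    (pow_ne_zero _ hD0) key⟩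
  intro n
  obtain ⟨r, hr⟩ := hF n
  exact ⟨M * r, by simp [hG, hr]⟩

end Fermat.Agent.S23L
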