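import Mathlib
import Fermat.Prelude.Def_ModularForm_HeckeOperator
import Fermat.Prelude.Def_FLTPrelim_Modularity
import Fermat.Prelude.Thm_UpperHalfPlane_qCoeff_heckeT
import Fermat.Prelude.Thm_UpperHalfPlane_qCoeff_heckeU
import Fermat.Prelude.Thm_ModularForm_periodic_heckeU_comp_ofComplex
import Fermat.Prelude.Thm_ModularForm_mdifferentiable_heckeU
import Fermat.Prelude.Thm_ModularForm_isBoundedAtImInfty_heckeU
import Fermat.Prelude.Thm_CongruenceSubgroup_one_mem_strictPeriods_Gamma0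
import Fermat.Agent.S23.Defs

set_option autoImplicit false

open UpperHalfPlane ModularForm CongruenceSubgroup Filter Topology
open scoped MatrixGroups Manifold

namespace Fermat.Agent.S23L

theorem phi_coe_apply (γ : SL(2, ℤ)) (i j : Fin 2) :
    ((γ : GL (Fin 2) ℝ) : Matrix (Fin 2) (Fin 2) ℝ) i j = (γ i j : ℝ) := by
  simp

/-- An element of `SL(2, ℤ)` with prescribed entries. -/
theorem phi_exists_SL (a b c d : ℤ) (h : a * d - b * c = 1) :
    ∃ γ : SL(2, ℤ), γ 0 0 = a ∧ γ 0 1 = b ∧ γ 1 0 = c ∧ γ 1 1 = d :=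
  ⟨⟨!![a, b; c, d], by rw [Matrix.det_fin_two_of]; exact h⟩, by simp, by simp, by simp, by simp⟩

theorem phi_det (γ : SL(2, ℤ)) : γ 0 0 * γ 1 1 - γ 0 1 * γ 1 0 = 1 := by
  have := γ.det_coe
  rwa [Matrix.det_fin_two] at this

/-- For `γ ∈ Γ₀(N)`, `diag(N,1) γ = γ' diag(N,1)` with `γ' ∈ SL(2, ℤ)`. -/
theorem phi_conj (N : ℕ) [NeZero N] (γ : SL(2, ℤ)) (hγ : γ ∈ Gamma0 N) :
    ∃ γ' : SL(2, ℤ), heckeDiagMatrix N * (γ : GL (Fin 2) ℝ)
      = (γ' : GL (Fin 2) ℝ) * heckeDiagMatrix N := by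
  have hN : N ≠ 0 := NeZero.ne N
  rw [Gamma0_mem, ZMod.intCast_zmod_eq_zero_iff_dvd] at hγ
  obtain ⟨c', hc'⟩ := hγ
  have hdet := phi_det γ
  obtain ⟨γ', h00, h01, h10, h11⟩ := phi_exists_SL (γ 0 0) (N * γ 0 1) c' (γ 1 1) (by
    rw [hc'] at hdet
    linear_combination hdet)
  refine ⟨γ', ?_⟩
  apply Units.ext
  rw [Units.val_mul, Units.val_mul, val_heckeDiagMatrix hN]
  ext i j
  fin_cases i <;> fin_cases j <;>
    simp only [Matrix.mul_apply, Fin.sum_univ_two, phi_coe_apply, h00, h01, h10, h11, hc',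
      Fin.zero_eta, Fin.mk_one, Matrix.of_apply, Matrix.cons_val', Matrix.cons_val_zero,
      Matrix.cons_val_one, Matrix.cons_val_fin_one] <;> push_cast <;> ring

/-- For any `γ ∈ SL(2, ℤ)`, `diag(N,1) γ = ε U` with `ε ∈ SL(2, ℤ)` and `U` upper triangular
with positive integral diagonal `(g, D)`, `g D = N`; moreover `D = 1` forces `γ ∈ Γ₀(N)`. -/
theorem phi_decomp (N : ℕ) [NeZero N] (γ : SL(2, ℤ)) :
    ∃ (ε : SL(2, ℤ)) (g B D : ℤ) (hgD : ((g : ℝ) * (D : ℝ)) ≠ 0), 0 < g ∧ 0 < D ∧ g * D = N ∧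
      (D = 1 → γ ∈ Gamma0 N) ∧
      heckeDiagMatrix N * (γ : GL (Fin 2) ℝ)
        = (ε : GL (Fin 2) ℝ) * upperTriangularGL g B D hgD := by
  have hN : N ≠ 0 := NeZero.ne N
  have hdet := phi_det γ
  set a := γ 0 0
  set b := γ 0 1
  set c := γ 1 0
  set d := γ 1 1
  set g : ℤ := (Int.gcd (N * a) c : ℤ) with hg
  have hg0 : g ≠ 0 := by
    intro h0
    have h1 : Int.gcd (N * a) c = 0 := by
      rw [hg] at h0
      exact_mod_cast h0
    rw [Int.gcd_eq_zero_iff] at h1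
    obtain ⟨h2, h3⟩ := h1
    have ha : a = 0 := by
      rcases mul_eq_zero.1 h2 with h | h
      · exact absurd (by exact_mod_cast h) hN
      · exact h
    rw [ha, h3] at hdet
    simp at hdet
  have hgpos : 0 < g := lt_of_le_of_ne (by positivity) (Ne.symm hg0)
  obtain ⟨a', ha'⟩ : g ∣ N * a := Int.gcd_dvd_left _ _
  obtain ⟨c', hc'⟩ : g ∣ c := Int.gcd_dvd_right _ _
  set u := Int.gcdA (N * a) c
  set v := Int.gcdB (N * a) c
  have hbez : g = N * a * u + c * v := Int.gcd_eq_gcd_ab _ _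
  have hbez' : a' * u + c' * v = 1 := by
    have : g * (a' * u + c' * v) = g * 1 := by
      rw [mul_one]
      calc g * (a' * u + c' * v) = (g * a') * u + (g * c') * v := by ring
        _ = g := by rw [← ha', ← hc']; exact hbez.symm
    exact mul_left_cancel₀ hg0 this
  obtain ⟨ε, h00, h01, h10, h11⟩ := phi_exists_SL a' (-v) c' u (by linear_combination hbez')
  set B : ℤ := u * (N * b) + v * d
  set D : ℤ := a' * d - c' * (N * b) with hD
  have hgD : g * D = N := by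
    calc g * D = (g * a') * d - (g * c') * (N * b) := by ring
      _ = N * (a * d - b * c) := by rw [← ha', ← hc']; ring
      _ = N := by rw [hdet, mul_one]
  have hDpos : 0 < D := by
    have h1 : 0 < g * D := by rw [hgD]; exact_mod_cast Nat.pos_of_ne_zero hN
    exact (mul_pos_iff_of_pos_left hgpos).1 h1
  have hgD' : ((g : ℝ) * (D : ℝ)) ≠ 0 := by
    have : ((g * D : ℤ) : ℝ) ≠ 0 := by
      rw [hgD]; exact_mod_cast hN
    exact_mod_cast this
  refine ⟨ε, g, B, D, hgD', hgpos, hDpos, hgD, ?_, ?_⟩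
  · intro hD1
    rw [Gamma0_mem, ZMod.intCast_zmod_eq_zero_iff_dvd]
    rw [hD1, mul_one] at hgD
    rw [← hgD]
    exact ⟨c', hc'⟩
  · apply Units.ext
    rw [Units.val_mul, Units.val_mul, val_heckeDiagMatrix hN, val_upperTriangularGL]
    have e00 : (N : ℝ) * (a : ℝ) = (a' : ℝ) * (g : ℝ) := by
      have : ((N * a : ℤ) : ℝ) = ((g * a' : ℤ) : ℝ) := by rw [ha']
      push_cast at this
      linarith
    have e10 : (c : ℝ) = (c' : ℝ) * (g : ℝ) := by
      have : ((c : ℤ) : ℝ) = ((g * c' : ℤ) : ℝ) := by rw [← hc']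
      push_cast at this
      linarith
    have e01 : (N : ℝ) * (b : ℝ) = (a' : ℝ) * (B : ℝ) + (-(v : ℝ)) * (D : ℝ) := by
      have : (N * b : ℤ) = a' * B + (-v) * D := by
        simp only [B, D]
        linear_combination (-(N : ℤ) * b) * hbez'
      have h2 : ((N * b : ℤ) : ℝ) = ((a' * B + (-v) * D : ℤ) : ℝ) := by rw [this]
      push_cast at h2
      exact h2
    have e11 : (d : ℝ) = (c' : ℝ) * (B : ℝ) + (u : ℝ) * (D : ℝ) := by
      have : d = c' * B + u * D := by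
        simp only [B, D]
        linear_combination (-d) * hbez'
      have h2 : ((d : ℤ) : ℝ) = ((c' * B + u * D : ℤ) : ℝ) := by rw [← this]
      push_cast at h2
      exact h2
    ext i j
    fin_cases i <;> fin_cases j <;>
      simp only [Matrix.mul_apply, Fin.sum_univ_two, phi_coe_apply, h00, h01, h10, h11,
        Fin.zero_eta, Fin.mk_one, Matrix.of_apply, Matrix.cons_val', Matrix.cons_val_zero,
        Matrix.cons_val_one, Matrix.cons_val_fin_one]
    · simpa using e00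
    · simpa using e01
    · simpa using e10
    · simpa using e11

open EisensteinSeries in
/-- The function `E₄ ∣[4] diag(N, 1)`, i.e. `N ^ 3 * E₄ (N z)`. -/
noncomputable def phiFun (N : ℕ) : ℍ → ℂ := (E₄ : ℍ → ℂ) ∣[(4 : ℤ)] heckeDiagMatrix N

open EisensteinSeries in
theorem phiFun_slash (N : ℕ) [NeZero N] (γ : SL(2, ℤ)) (hγ : γ ∈ Gamma0 N) :
    phiFun N ∣[(4 : ℤ)] (γ : GL (Fin 2) ℝ) = phiFun N := by
  obtain ⟨γ', hγ'⟩ := phi_conj N γ hγ
  rw [phiFun, ← SlashAction.slash_mul, hγ', SlashAction.slash_mul]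
  congr 1
  exact E₄.slash_action_eq' _ ⟨γ', rfl⟩

open ConjAct Pointwise in
theorem phi_conj_le (N : ℕ) [NeZero N] :
    toConjAct (heckeDiagMatrix N) • ((Gamma0 N : Subgroup SL(2, ℤ)) : Subgroup (GL (Fin 2) ℝ))
      ≤ 𝒮ℒ := by
  intro x hx
  rw [Subgroup.mem_pointwise_smul_iff_inv_smul_mem] at hx
  obtain ⟨γ, hγ, hγx⟩ := hx
  obtain ⟨γ', hγ'⟩ := phi_conj N γ hγ
  refine ⟨γ', ?_⟩
  have h1 : (γ : GL (Fin 2) ℝ) = (heckeDiagMatrix N)⁻¹ * x * heckeDiagMatrix N := by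
    have := hγx
    rw [← map_inv, ConjAct.toConjAct_smul, inv_inv] at this
    exact this
  rw [h1] at hγ'
  have h2 : x * heckeDiagMatrix N = (γ' : GL (Fin 2) ℝ) * heckeDiagMatrix N := by
    rw [← hγ']; group
  exact (mul_right_cancel h2).symm

open EisensteinSeries in
/-- `phiFun N` as a modular form of weight `4` on `Γ₀(N)`. -/
noncomputable def phiForm (N : ℕ) [NeZero N] : ModularForm (Gamma0 N) 4 where
  toFun := phiFun N
  slash_action_eq' := by
    rintro _ ⟨γ, hγ, rfl⟩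
    exact phiFun_slash N γ hγ
  holo' := (ModularFormClass.holo E₄).slash 4 _
  bdd_at_cusps' := by
    intro c hc
    refine OnePoint.IsBoundedAt.smul_iff.mp ?_
    exact ModularFormClass.bdd_at_cusps E₄ ((hc.smul (heckeDiagMatrix N)).mono (phi_conj_le N))

theorem coe_phiForm (N : ℕ) [NeZero N] : (phiForm N : ℍ → ℂ) = phiFun N := rfl

open EisensteinSeries in
theorem phi_E4_coeff_int (m : ℕ) : ∃ z : ℤ, (qExpansion 1 E₄).coeff m = (z : ℂ) := by
  rw [E_qExpansion_coeff _ ⟨2, rfl⟩]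
  split_ifs with h
  · exact ⟨1, by simp⟩
  · refine ⟨240 * (ArithmeticFunction.sigma 3 m : ℤ), ?_⟩
    have hb : bernoulli 4 = -1 / 30 := by decide +kernel
    rw [hb]
    push_cast
    norm_num

open EisensteinSeries in
theorem phiFun_coeff (N : ℕ) [NeZero N] (n : ℕ) :
    (qExpansion 1 (phiFun N)).coeff n
      = if N ∣ n then (N : ℂ) ^ ((4 : ℤ) - 1) * (qExpansion 1 E₄).coeff (n / N) else 0 := by
  have hN : N ≠ 0 := NeZero.ne N
  have hper : Function.Periodic ((E₄ : ℍ → ℂ) ∘ ofComplex) 1 :=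
    SlashInvariantFormClass.periodic_comp_ofComplex E₄ one_mem_strictPeriods_SL
  have hhol : MDiff (E₄ : ℍ → ℂ) := ModularFormClass.holo E₄
  have hbdd : IsBoundedAtImInfty (E₄ : ℍ → ℂ) := ModularFormClass.bdd_at_infty E₄
  have hT := UpperHalfPlane.qCoeff_heckeT hper hhol hbdd 4 hN n
  have hU := UpperHalfPlane.qCoeff_heckeU hper hhol hbdd 4 hN n
  have haU : AnalyticAt ℂ (cuspFunction 1 (heckeU 4 N (E₄ : ℍ → ℂ))) 0 :=
    analyticAt_cuspFunction_zero one_pos (ModularForm.periodic_heckeU_comp_ofComplex hper 4 N)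
      (ModularForm.mdifferentiable_heckeU hhol 4 N) (ModularForm.isBoundedAtImInfty_heckeU hbdd 4 N)
  have haφ : AnalyticAt ℂ (cuspFunction 1 (phiFun N)) 0 :=
    ModularFormClass.analyticAt_cuspFunction_zero (phiForm N) one_pos
      (CongruenceSubgroup.one_mem_strictPeriods_Gamma0 N)
  have hadd : qExpansion 1 (heckeT 4 N (E₄ : ℍ → ℂ))
      = qExpansion 1 (heckeU 4 N (E₄ : ℍ → ℂ)) + qExpansion 1 (phiFun N) := by
    rw [heckeT_eq_heckeU_add]
    exact qExpansion_add haU haφ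
  have h1 : (qExpansion 1 (phiFun N)).coeff n
      = (qExpansion 1 (heckeT 4 N (E₄ : ℍ → ℂ))).coeff n
        - (qExpansion 1 (heckeU 4 N (E₄ : ℍ → ℂ))).coeff n := by
    rw [hadd, map_add]; ring
  rw [h1]
  simp only [ModularFormClass.qCoeff] at hT hU
  rw [hT, hU, coeffHeckeT_eq_coeffHeckeU_add]
  simp only [ModularFormClass.qCoeff]
  ring

theorem phiForm_qExpansion_mem (N : ℕ) [NeZero N] : qExpansion 1 (phiForm N) ∈ IntPS := by
  intro n
  rw [coe_phiForm, phiFun_coeff]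
  split_ifs with h
  · obtain ⟨z, hz⟩ := phi_E4_coeff_int (n / N)
    refine ⟨(N : ℤ) ^ 3 * z, ?_⟩
    rw [hz]
    push_cast
    norm_num
  · exact ⟨0, by simp⟩

theorem phi_tendsto_of_modularForm {k : ℤ} (f : ModularForm 𝒮ℒ k) :
    Tendsto (f : ℍ → ℂ) atImInfty (𝓝 ((qExpansion 1 f).coeff 0)) := by
  have hanal := ModularFormClass.analyticAt_cuspFunction_zero f one_pos one_mem_strictPeriods_SL
  have h0 : (qExpansion 1 f).coeff 0 = cuspFunction 1 f 0 := by
    simp [qExpansion_coeff]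
  rw [h0]
  exact (hanal.continuousAt.tendsto.comp (qParam_tendsto_atImInfty one_pos)).congr
    (fun τ ↦ SlashInvariantFormClass.eq_cuspFunction f τ one_mem_strictPeriods_SL one_ne_zero)

theorem phi_tendsto_slash_upper (f : ℍ → ℂ) (l : ℂ) (hf : Tendsto f atImInfty (𝓝 l)) (k : ℤ)
    (a b d : ℝ) (had : a * d ≠ 0) (hpos : 0 < a * d) :
    Tendsto (f ∣[k] upperTriangularGL a b d had) atImInfty
      (𝓝 (l * ((a * d : ℝ) : ℂ) ^ (k - 1) * (d : ℂ) ^ (-k))) := by
  have hdet : ((upperTriangularGL a b d had).det : ℝ) = a * d := by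
    rw [Matrix.GeneralLinearGroup.val_det_apply, val_upperTriangularGL, Matrix.det_fin_two_of]
    ring
  have h10 : (upperTriangularGL a b d had : GL (Fin 2) ℝ) 1 0 = 0 := by
    simp [val_upperTriangularGL]
  have hσ : UpperHalfPlane.σ (upperTriangularGL a b d had) = .refl ℝ ℂ := by
    rw [UpperHalfPlane.σ, if_pos (by rw [hdet]; exact hpos)]
  have hfun : (f ∣[k] upperTriangularGL a b d had)
      = fun τ => f (upperTriangularGL a b d had • τ) * ((a * d : ℝ) : ℂ) ^ (k - 1)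
          * (d : ℂ) ^ (-k) := by
    ext τ
    rw [ModularForm.slash_apply, hσ, hdet, abs_of_pos hpos]
    simp [UpperHalfPlane.denom, val_upperTriangularGL]
  rw [hfun]
  exact ((hf.comp (tendsto_smul_atImInfty h10)).mul_const _).mul_const _

open EisensteinSeries in
theorem phiFun_stab (N : ℕ) [NeZero N] (γ : SL(2, ℤ))
    (h : phiFun N ∣[(4 : ℤ)] γ = phiFun N) : γ ∈ Gamma0 N := by
  have hN : N ≠ 0 := NeZero.ne N
  have hE : Tendsto (E₄ : ℍ → ℂ) atImInfty (𝓝 1) := by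
    have := phi_tendsto_of_modularForm E₄
    rwa [E_qExpansion_coeff_zero _ ⟨2, rfl⟩] at this
  obtain ⟨ε, g, B, D, hgD, hg, hD, hgDN, hD1, hdec⟩ := phi_decomp N γ
  apply hD1
  -- the limit of the left hand side
  have hL : phiFun N ∣[(4 : ℤ)] γ = (E₄ : ℍ → ℂ) ∣[(4 : ℤ)] upperTriangularGL g B D hgD := by
    rw [phiFun, ModularForm.SL_slash, ← SlashAction.slash_mul, hdec, SlashAction.slash_mul]
    congr 1
    exact E₄.slash_action_eq' _ ⟨ε, rfl⟩
  have hposR : (0 : ℝ) < (g : ℝ) * (D : ℝ) := by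
    have h1 : (0 : ℝ) < (g : ℝ) := by exact_mod_cast hg
    have h2 : (0 : ℝ) < (D : ℝ) := by exact_mod_cast hD
    positivity
  have hlim1 := phi_tendsto_slash_upper (E₄ : ℍ → ℂ) 1 hE 4 g B D hgD hposR
  -- the limit of the right hand side
  have hN1 : ((N : ℝ) * (1 : ℝ)) ≠ 0 := by
    rw [mul_one]; exact_mod_cast hN
  have hR : phiFun N = (E₄ : ℍ → ℂ) ∣[(4 : ℤ)] upperTriangularGL N 0 1 hN1 := by
    rw [phiFun, heckeDiagMatrix, dif_neg hN]
  have hposN : (0 : ℝ) < (N : ℝ) * 1 := by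
    rw [mul_one]; exact_mod_cast Nat.pos_of_ne_zero hN
  have hlim2 := phi_tendsto_slash_upper (E₄ : ℍ → ℂ) 1 hE 4 N 0 1 hN1 hposN
  rw [← hL, h, hR] at hlim1
  have huniq := tendsto_nhds_unique hlim1 hlim2
  have hgDR : ((g : ℝ) * (D : ℝ)) = (N : ℝ) * 1 := by
    rw [mul_one]; exact_mod_cast hgDN
  rw [hgDR] at huniq
  have hNC : (((N : ℝ) * 1 : ℝ) : ℂ) ^ ((4 : ℤ) - 1) ≠ 0 := by
    apply zpow_ne_zero
    exact_mod_cast hN1
  have h3 : ((D : ℝ) : ℂ) ^ (-(4 : ℤ)) = ((1 : ℝ) : ℂ) ^ (-(4 : ℤ)) := by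
    have := huniq
    rw [one_mul] at this
    exact mul_left_cancel₀ hNC this
  have h4 : ((D : ℝ) : ℂ) ^ 4 = 1 := by
    have hD0 : ((D : ℝ) : ℂ) ≠ 0 := by
      have : (D : ℝ) ≠ 0 := by exact_mod_cast hD.ne'
      exact_mod_cast this
    simp only [Complex.ofReal_one, one_zpow, zpow_neg] at h3
    have h5 : ((D : ℝ) : ℂ) ^ (4 : ℤ) = 1 := by
      exact inv_injective h3
    exact_mod_cast h5
  have h5 : D ^ 4 = 1 := by exact_mod_cast h4
  have h6 : D = 1 := by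
    by_contra hne
    have h7 : 2 ≤ D := by omega
    have : (2 : ℤ) ^ 4 ≤ D ^ 4 := pow_le_pow_left₀ (by norm_num) h7 4
    rw [h5] at this
    norm_num at this
  exact h6

theorem exists_phi (N : ℕ) [NeZero N] :
    ∃ φ : ModularForm (Gamma0 N) 4, qExpansion 1 φ ∈ IntPS ∧
      ∀ γ : SL(2, ℤ), (⇑φ) ∣[(4 : ℤ)] γ = ⇑φ → γ ∈ Gamma0 N :=
  ⟨phiForm N, phiForm_qExpansion_mem N, fun γ h => phiFun_stab N γ h⟩

end Fermat.Agent.S23L
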