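import Mathlib

set_option autoImplicit false
open UpperHalfPlane ModularForm CongruenceSubgroup
open scoped MatrixGroups Manifold

namespace Fermat.Agent.S23L

open Matrix.SpecialLinearGroup in
theorem exists_conjugates (N : ℕ) [NeZero N] :
  ∃ (ι : Type) (_ : Fintype ι) (_ : DecidableEq ι) (q0 : ι) (g : ι → SL(2, ℤ)),
    (∀ q, g q ∈ Gamma0 N ↔ q = q0) ∧
    (∀ (K : ℤ) (φ : ModularForm (Gamma0 N) K), ∃ F : ModularForm 𝒮ℒ K,
      (F : ℍ → ℂ) = ∑ q, (φ : ℍ → ℂ) ∣[K] g q) ∧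
    (∀ (K : ℤ) (φ : CuspForm (Gamma0 N) K), ∃ F : CuspForm 𝒮ℒ K,
      (F : ℍ → ℂ) = ∑ q, (φ : ℍ → ℂ) ∣[K] g q) := by
  classical
  let Γ : Subgroup (GL (Fin 2) ℝ) := (Gamma0 N : Subgroup (GL (Fin 2) ℝ))
  have : Γ.IsFiniteRelIndex 𝒮ℒ := inferInstance
  let ι := 𝒮ℒ ⧸ (Γ.subgroupOf 𝒮ℒ)
  let : Fintype ι := Fintype.ofFinite ι
  have hpre : ∀ q : ι, ∃ s : SL(2, ℤ), mapGL ℝ s = (q.out.val)⁻¹ := by
    intro q
    have := (inv_mem q.out.2)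
    exact this
  choose g hg using hpre
  have hq : ∀ (K : ℤ) (F : Type) [FunLike F ℍ ℂ] [SlashInvariantFormClass F Γ K] (φ : F) (q : ι),
      SlashInvariantForm.quotientFunc φ q = (φ : ℍ → ℂ) ∣[K] g q := by
    intro K F _ _ φ q
    conv_lhs => rw [← Quotient.out_eq q]
    rw [SlashInvariantForm.quotientFunc_mk, ← hg q]
    rfl
  refine ⟨ι, inferInstance, inferInstance, ((1 : 𝒮ℒ) : ι), g, ?_, ?_, ?_⟩
  · intro q
    have h1 : g q ∈ Gamma0 N ↔ (q.out.val)⁻¹ ∈ Γ := by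
      rw [← hg q]
      constructor
      · intro h
        exact ⟨g q, h, rfl⟩
      · rintro ⟨s, hs, hs'⟩
        have := mapGL_injective (R := ℤ) (S := ℝ) (n := Fin 2) hs'
        rwa [← this]
    rw [h1]
    have h2 : q = ((1 : 𝒮ℒ) : ι) ↔ ((q.out : 𝒮ℒ) : ι) = ((1 : 𝒮ℒ) : ι) := by
      rw [QuotientGroup.out_eq']
    rw [h2, QuotientGroup.eq, mul_one, Subgroup.mem_subgroupOf]
    rfl
  · intro K φ
    refine ⟨ModularForm.trace 𝒮ℒ φ, ?_⟩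
    rw [ModularForm.coe_trace]
    exact Finset.sum_congr rfl fun q _ => hq K _ φ q
  · intro K φ
    refine ⟨CuspForm.trace 𝒮ℒ φ, ?_⟩
    rw [CuspForm.coe_trace]
    exact Finset.sum_congr rfl fun q _ => hq K _ φ q

end Fermat.Agent.S23L
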