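import Mathlib

set_option autoImplicit false
open Finset Polynomial

namespace Fermat.Agent.S23L

set_option linter.unusedSectionVars false

variable {ι : Type*} [Fintype ι] [DecidableEq ι] {R : Type*} [CommRing R]

/-- The polynomial `∏ (X - x q)` attached to a finite family. -/
noncomputable def symPoly (x : ι → R) : R[X] := ∏ q, (X - C (x q))

theorem symPoly_monic (x : ι → R) : (symPoly x).Monic :=
  monic_prod_of_monic _ _ fun q _ => monic_X_sub_C (x q)

theorem symPoly_natDegree [Nontrivial R] (x : ι → R) :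
    (symPoly x).natDegree = Fintype.card ι := by
  rw [symPoly, natDegree_prod_of_monic _ _ fun q _ => monic_X_sub_C (x q)]
  simp

theorem symPoly_natDegree_le (x : ι → R) : (symPoly x).natDegree ≤ Fintype.card ι := by
  rcases subsingleton_or_nontrivial R with h | h
  · have : symPoly x = 0 := Subsingleton.elim _ _
    rw [this]
    simp
  · exact (symPoly_natDegree x).le

theorem symPoly_coeff_card (x : ι → R) : (symPoly x).coeff (Fintype.card ι) = 1 := by
  rcases subsingleton_or_nontrivial R with h | h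
  · exact Subsingleton.elim _ _
  · have := (symPoly_monic x).coeff_natDegree
    rwa [symPoly_natDegree] at this

theorem symPoly_eval (x : ι → R) (q : ι) : (symPoly x).eval (x q) = 0 := by
  rw [symPoly, eval_prod]
  exact Finset.prod_eq_zero (mem_univ q) (by simp)

/-- The divided difference of `symPoly x` at a root. -/
theorem sym_divided (x : ι → R) (q : ι) :
    ∑ m ∈ range (Fintype.card ι + 1), C ((symPoly x).coeff m) *
        ∑ a ∈ range m, X ^ a * C (x q) ^ (m - 1 - a)
      = ∏ q' ∈ univ.erase q, (X - C (x q')) := by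
  apply (monic_X_sub_C (x q)).isRegular.left
  show (X - C (x q)) * _ = (X - C (x q)) * _
  rw [Finset.mul_prod_erase univ (fun q' => X - C (x q')) (mem_univ q)]
  have hlt : (symPoly x).natDegree < Fintype.card ι + 1 :=
    Nat.lt_succ_of_le (symPoly_natDegree_le x)
  have h1 : (X - C (x q)) * ∑ m ∈ range (Fintype.card ι + 1), C ((symPoly x).coeff m) *
        ∑ a ∈ range m, X ^ a * C (x q) ^ (m - 1 - a)
      = ∑ m ∈ range (Fintype.card ι + 1), C ((symPoly x).coeff m) * (X ^ m - C (x q) ^ m) := by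
    rw [Finset.mul_sum]
    refine Finset.sum_congr rfl fun m _ => ?_
    rw [← geom_sum₂_mul]
    ring
  rw [h1]
  simp only [mul_sub, Finset.sum_sub_distrib]
  have h2 : ∑ m ∈ range (Fintype.card ι + 1), C ((symPoly x).coeff m) * X ^ m = symPoly x :=
    ((symPoly x).as_sum_range_C_mul_X_pow' hlt).symm
  have h3 : ∑ m ∈ range (Fintype.card ι + 1), C ((symPoly x).coeff m) * C (x q) ^ m = 0 := by
    have := symPoly_eval x q
    rw [eval_eq_sum_range' hlt] at this
    have h4 := congrArg C this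
    simpa [map_sum] using h4
  rw [h2, h3, sub_zero]
  rfl

theorem sym_divided_eval (x : ι → R) (q : ι) (u : R) :
    ∑ m ∈ range (Fintype.card ι + 1), (symPoly x).coeff m *
        ∑ a ∈ range m, u ^ a * x q ^ (m - 1 - a)
      = ∏ q' ∈ univ.erase q, (u - x q') := by
  have := congrArg (eval u) (sym_divided x q)
  simpa [eval_finsetSum, eval_prod] using this

/-- The derivative of `symPoly x` at the root `x q0`. -/
theorem sym_den (x : ι → R) (q0 : ι) :
    ∑ m ∈ range (Fintype.card ι + 1), m • ((symPoly x).coeff m * x q0 ^ (m - 1))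
      = ∏ q ∈ univ.erase q0, (x q0 - x q) := by
  rw [← sym_divided_eval x q0 (x q0)]
  refine Finset.sum_congr rfl fun m _ => ?_
  have : ∑ a ∈ range m, x q0 ^ a * x q0 ^ (m - 1 - a) = m • x q0 ^ (m - 1) := by
    rw [Finset.sum_congr rfl (g := fun _ => x q0 ^ (m - 1))]
    · simp
    · intro a ha
      rw [← pow_add]
      congr 1
      have := Finset.mem_range.1 ha
      omega
  rw [this, mul_smul_comm]

/-- Lagrange interpolation. -/
theorem sym_num (x f : ι → R) (q0 : ι) :
    ∑ m ∈ range (Fintype.card ι + 1), ∑ a ∈ range m,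
        (symPoly x).coeff m * x q0 ^ a * ∑ q, f q * x q ^ (m - 1 - a)
      = f q0 * ∏ q ∈ univ.erase q0, (x q0 - x q) := by
  have h1 : ∑ m ∈ range (Fintype.card ι + 1), ∑ a ∈ range m,
        (symPoly x).coeff m * x q0 ^ a * ∑ q, f q * x q ^ (m - 1 - a)
      = ∑ q, f q * ∑ m ∈ range (Fintype.card ι + 1), (symPoly x).coeff m *
        ∑ a ∈ range m, x q0 ^ a * x q ^ (m - 1 - a) := by
    calc ∑ m ∈ range (Fintype.card ι + 1), ∑ a ∈ range m,
          (symPoly x).coeff m * x q0 ^ a * ∑ q, f q * x q ^ (m - 1 - a)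
        = ∑ m ∈ range (Fintype.card ι + 1), ∑ q, ∑ a ∈ range m,
          f q * ((symPoly x).coeff m * (x q0 ^ a * x q ^ (m - 1 - a))) := by
          refine Finset.sum_congr rfl fun m _ => ?_
          simp only [Finset.mul_sum]
          rw [Finset.sum_comm]
          exact Finset.sum_congr rfl fun q _ => Finset.sum_congr rfl fun a _ => by ring
      _ = ∑ q, ∑ m ∈ range (Fintype.card ι + 1), ∑ a ∈ range m,
          f q * ((symPoly x).coeff m * (x q0 ^ a * x q ^ (m - 1 - a))) := Finset.sum_comm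
      _ = _ := by simp only [Finset.mul_sum]
  rw [h1]
  simp only [sym_divided_eval]
  rw [Finset.sum_eq_single q0]
  · intro q _ hq
    rw [Finset.prod_eq_zero (i := q0) (Finset.mem_erase.2 ⟨hq.symm, mem_univ _⟩) (sub_self _),
      mul_zero]
  · intro h
    exact absurd (mem_univ q0) h

/-- The monic relation satisfied by each member of the family. -/
theorem sym_monic_rel (f : ι → R) (q0 : ι) :
    f q0 ^ Fintype.card ι + ∑ i ∈ range (Fintype.card ι),
      (symPoly f).coeff (Fintype.card ι - (i + 1)) * f q0 ^ (Fintype.card ι - (i + 1)) = 0 := by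
  have hlt : (symPoly f).natDegree < Fintype.card ι + 1 :=
    Nat.lt_succ_of_le (symPoly_natDegree_le f)
  have h := symPoly_eval f q0
  rw [eval_eq_sum_range' hlt, Finset.sum_range_succ, symPoly_coeff_card, one_mul,
    ← Finset.sum_range_reflect] at h
  rw [add_comm]
  rw [← h]
  congr 1
  refine Finset.sum_congr rfl fun i _ => ?_
  have : Fintype.card ι - (i + 1) = Fintype.card ι - 1 - i := by omega
  rw [this]

theorem symPoly_coeff_eq_esymm (x : ι → R) (i : ℕ) (hi : i ≤ Fintype.card ι) :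
    (symPoly x).coeff (Fintype.card ι - i) = (-1) ^ i * (univ.val.map x).esymm i := by
  have h1 : symPoly x = ((univ.val.map x).map fun t => X - C t).prod := by
    rw [symPoly, Finset.prod_eq_multiset_prod, Multiset.map_map]
    rfl
  have hcard : Multiset.card (univ.val.map x) = Fintype.card ι := by simp
  rw [h1, Multiset.prod_X_sub_C_coeff _ (by rw [hcard]; omega), hcard]
  have : Fintype.card ι - (Fintype.card ι - i) = i := by omega
  rw [this]

theorem sym_neg_one_pow_mul_mem {𝕜 : Type*} [Field 𝕜] [Algebra 𝕜 R] (S : Submodule 𝕜 R) (n : ℕ)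
    {y : R} (hy : y ∈ S) : (-1) ^ n * y ∈ S := by
  rcases neg_one_pow_eq_or R n with h | h
  · rw [h, one_mul]; exact hy
  · rw [h, neg_one_mul]; exact S.neg_mem hy

/-- Newton's identities in graded form. -/
theorem sym_esymm_mem {𝕜 : Type*} [Field 𝕜] [CharZero 𝕜] [Algebra 𝕜 R]
    (A C : ℤ → Submodule 𝕜 R) (hCA : ∀ k, C k ≤ A k) (h1 : (1 : R) ∈ A 0)
    (hmul : ∀ (a b : ℤ) (x y : R), x ∈ A a → y ∈ C b → x * y ∈ C (a + b))
    (x : ι → R) (w : ℤ) (hp : ∀ j : ℕ, 1 ≤ j → ∑ q, x q ^ j ∈ C (w * j)) :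
    ∀ i : ℕ, 1 ≤ i → (univ.val.map x).esymm i ∈ C (w * i) := by
  intro i
  induction i using Nat.strong_induction_on with
  | _ i ih =>
    intro hi
    have hN := congrArg (MvPolynomial.aeval (R := 𝕜) x) (MvPolynomial.mul_esymm_eq_sum ι 𝕜 i)
    simp only [map_mul, map_natCast, map_pow, map_neg, map_one, map_sum,
      MvPolynomial.aeval_esymm_eq_multiset_esymm, MvPolynomial.psum, MvPolynomial.aeval_X] at hN
    have hmem : (i : R) * (univ.val.map x).esymm i ∈ C (w * i) := by
      rw [hN]
      apply sym_neg_one_pow_mul_mem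
      refine Submodule.sum_mem _ fun a ha => ?_
      rw [Finset.mem_filter, Finset.HasAntidiagonal.mem_antidiagonal] at ha
      obtain ⟨ha1, ha2⟩ := ha
      have hw : w * (i : ℤ) = w * (a.1 : ℤ) + w * (a.2 : ℤ) := by
        rw [← ha1]; push_cast; ring
      rw [hw, mul_assoc]
      apply sym_neg_one_pow_mul_mem
      apply hmul
      · rcases Nat.eq_zero_or_pos a.1 with h0 | h0
        · rw [h0]
          simpa [Multiset.esymm] using h1
        · exact hCA _ (ih a.1 ha2 h0)
      · exact hp a.2 (by omega)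
    have hi0 : (i : 𝕜) ≠ 0 := by
      exact_mod_cast (by omega : i ≠ 0)
    have := (C (w * i)).smul_mem ((i : 𝕜)⁻¹) hmem
    rwa [← nsmul_eq_mul, ← Nat.cast_smul_eq_nsmul 𝕜, smul_smul, inv_mul_cancel₀ hi0,
      one_smul] at this

theorem sym_coeff_mem {𝕜 : Type*} [Field 𝕜] [CharZero 𝕜] [Algebra 𝕜 R]
    (A C : ℤ → Submodule 𝕜 R) (hCA : ∀ k, C k ≤ A k) (h1 : (1 : R) ∈ A 0)
    (hmul : ∀ (a b : ℤ) (x y : R), x ∈ A a → y ∈ C b → x * y ∈ C (a + b))
    (x : ι → R) (w : ℤ) (hp : ∀ j : ℕ, 1 ≤ j → ∑ q, x q ^ j ∈ C (w * j))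
    (i : ℕ) (hi1 : 1 ≤ i) (hi : i ≤ Fintype.card ι) :
    (symPoly x).coeff (Fintype.card ι - i) ∈ C (w * i) := by
  rw [symPoly_coeff_eq_esymm x i hi]
  exact sym_neg_one_pow_mul_mem _ _ (sym_esymm_mem A C hCA h1 hmul x w hp i hi1)

end Fermat.Agent.S23L
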