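import Mathlib
import Fermat.Agent.S23.Defs
import Fermat.Agent.S23.Sym
import Fermat.Agent.S23.Conj

set_option autoImplicit false
open UpperHalfPlane ModularForm CongruenceSubgroup
open scoped MatrixGroups Manifold

namespace Fermat.Agent.S23L

/-- Functions on `ℍ` which are level one modular forms of weight `k`. -/
def mfSub (k : ℤ) : Submodule ℂ (ℍ → ℂ) where
  carrier := {F | ∃ G : ModularForm 𝒮ℒ k, (G : ℍ → ℂ) = F}
  add_mem' := by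
    rintro _ _ ⟨a, rfl⟩ ⟨b, rfl⟩
    exact ⟨a + b, rfl⟩
  zero_mem' := ⟨0, rfl⟩
  smul_mem' := by
    rintro c _ ⟨a, rfl⟩
    exact ⟨c • a, rfl⟩

/-- Functions on `ℍ` which are level one cusp forms of weight `k`. -/
def cfSub (k : ℤ) : Submodule ℂ (ℍ → ℂ) where
  carrier := {F | ∃ G : CuspForm 𝒮ℒ k, (G : ℍ → ℂ) = F}
  add_mem' := by
    rintro _ _ ⟨a, rfl⟩ ⟨b, rfl⟩
    exact ⟨a + b, rfl⟩
  zero_mem' := ⟨0, rfl⟩
  smul_mem' := by
    rintro c _ ⟨a, rfl⟩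
    exact ⟨c • a, rfl⟩

theorem mem_mfSub {k : ℤ} {F : ℍ → ℂ} : F ∈ mfSub k ↔ ∃ G : ModularForm 𝒮ℒ k, (G : ℍ → ℂ) = F :=
  Iff.rfl

theorem mem_cfSub {k : ℤ} {F : ℍ → ℂ} : F ∈ cfSub k ↔ ∃ G : CuspForm 𝒮ℒ k, (G : ℍ → ℂ) = F :=
  Iff.rfl

/-- A cusp form regarded as a modular form. -/
def cuspToMF {Γ : Subgroup (GL (Fin 2) ℝ)} {k : ℤ} (f : CuspForm Γ k) : ModularForm Γ k where
  toSlashInvariantForm := f.toSlashInvariantForm
  holo' := f.holo'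
  bdd_at_cusps' hc γ hγ := (f.zero_at_cusps' hc γ hγ).boundedAtFilter

theorem coe_cuspToMF {Γ : Subgroup (GL (Fin 2) ℝ)} {k : ℤ} (f : CuspForm Γ k) :
    (cuspToMF f : ℍ → ℂ) = f := rfl

theorem cfSub_le_mfSub (k : ℤ) : cfSub k ≤ mfSub k := by
  rintro _ ⟨a, rfl⟩
  exact ⟨cuspToMF a, rfl⟩

theorem one_mem_mfSub : (1 : ℍ → ℂ) ∈ mfSub 0 := ⟨1, rfl⟩

theorem mfSub_mul_mfSub (a b : ℤ) (x y : ℍ → ℂ) (hx : x ∈ mfSub a) (hy : y ∈ mfSub b) :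
    x * y ∈ mfSub (a + b) := by
  obtain ⟨x, rfl⟩ := hx
  obtain ⟨y, rfl⟩ := hy
  exact ⟨x.mul y, rfl⟩

theorem mfSub_mul_cfSub (a b : ℤ) (x y : ℍ → ℂ) (hx : x ∈ mfSub a) (hy : y ∈ cfSub b) :
    x * y ∈ cfSub (a + b) := by
  obtain ⟨x, rfl⟩ := hx
  obtain ⟨y, rfl⟩ := hy
  exact ⟨(y.mulModularForm x).mcast (add_comm b a), mul_comm _ _⟩

theorem pow_slash_SL2 (k : ℤ) (A : SL(2, ℤ)) (f : ℍ → ℂ) (j : ℕ) :
    (f ^ j) ∣[k * j] A = (f ∣[k] A) ^ j := by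
  induction j with
  | zero => simpa using is_invariant_one A
  | succ j ih =>
    have : k * ((j + 1 : ℕ) : ℤ) = k * j + k := by push_cast; ring
    rw [this, pow_succ, mul_slash_SL2, ih, pow_succ]

theorem exists_certificate (N : ℕ) [NeZero N] (k : ℤ) (φ : ModularForm (Gamma0 N) 4)
    (hφ : ∀ γ : SL(2, ℤ), (⇑φ) ∣[(4 : ℤ)] γ = ⇑φ → γ ∈ Gamma0 N)
    (f : CuspForm (Gamma0 N) k) :
    ∃ (μ : ℕ) (_ : 0 < μ)
      (p : (m : ℕ) → ModularForm 𝒮ℒ (4 * ((μ : ℤ) - m)))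
      (t : (b : ℕ) → ModularForm 𝒮ℒ (k + 4 * b))
      (c : (i : ℕ) → CuspForm 𝒮ℒ (k * i)),
      (∑ m ∈ Finset.range (μ + 1), (m : ℂ) • ((p m : ℍ → ℂ) * (φ : ℍ → ℂ) ^ (m - 1)) ≠ 0) ∧
      ((f : ℍ → ℂ) * ∑ m ∈ Finset.range (μ + 1), (m : ℂ) • ((p m : ℍ → ℂ) * (φ : ℍ → ℂ) ^ (m - 1))
        = ∑ m ∈ Finset.range (μ + 1), ∑ a ∈ Finset.range m,
            (p m : ℍ → ℂ) * (φ : ℍ → ℂ) ^ a * (t (m - 1 - a) : ℍ → ℂ)) ∧
      ((f : ℍ → ℂ) ^ μ + ∑ i ∈ Finset.range μ, (c (i + 1) : ℍ → ℂ) * (f : ℍ → ℂ) ^ (μ - (i + 1))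
        = 0) := by
  obtain ⟨ι, _, _, q0, g, hg, hM, hC⟩ := exists_conjugates N
  set x : ι → (ℍ → ℂ) := fun q => (φ : ℍ → ℂ) ∣[(4 : ℤ)] g q with hx
  set y : ι → (ℍ → ℂ) := fun q => (f : ℍ → ℂ) ∣[k] g q with hy
  have hx0 : x q0 = φ := by
    have := (hg q0).2 rfl
    exact SlashInvariantForm.slash_action_eqn φ _ ⟨_, this, rfl⟩
  have hy0 : y q0 = f := by
    have := (hg q0).2 rfl
    exact SlashInvariantForm.slash_action_eqn f _ ⟨_, this, rfl⟩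
  have hpx : ∀ j : ℕ, 1 ≤ j → ∑ q, x q ^ j ∈ mfSub (4 * j) := by
    intro j _
    obtain ⟨F, hF⟩ := hM (4 * j) ((φ.pow j).mcast (mul_comm _ _))
    refine ⟨F, ?_⟩
    rw [hF]
    refine Finset.sum_congr rfl fun q _ => ?_
    rw [coe_mcast, coe_pow, pow_slash_SL2]
  have hpy : ∀ j : ℕ, 1 ≤ j → ∑ q, y q ^ j ∈ cfSub (k * j) := by
    intro j hj
    have hw : k + ((j - 1 : ℕ) : ℤ) * k = k * j := by
      rw [Nat.cast_sub hj]; push_cast; ring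
    obtain ⟨F, hF⟩ := hC (k * j) ((f.mulModularForm ((cuspToMF f).pow (j - 1))).mcast hw)
    refine ⟨F, ?_⟩
    rw [hF]
    refine Finset.sum_congr rfl fun q _ => ?_
    have : ((((f.mulModularForm ((cuspToMF f).pow (j - 1))).mcast hw :
        CuspForm (Gamma0 N) (k * j)) : ℍ → ℂ)) = (f : ℍ → ℂ) ^ j := by
      change (f : ℍ → ℂ) * (((cuspToMF f).pow (j - 1) : ModularForm _ _) : ℍ → ℂ) = _
      rw [coe_pow, coe_cuspToMF, ← pow_succ']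
      congr 1
      omega
    rw [this, pow_slash_SL2]
  have ht : ∀ b : ℕ, ∃ G : ModularForm 𝒮ℒ (k + 4 * b), (G : ℍ → ℂ) = ∑ q, y q * x q ^ b := by
    intro b
    have hw : k + (b : ℤ) * 4 = k + 4 * b := by ring
    obtain ⟨F, hF⟩ := hC (k + 4 * b) ((f.mulModularForm (φ.pow b)).mcast hw)
    refine ⟨cuspToMF F, ?_⟩
    rw [coe_cuspToMF, hF]
    refine Finset.sum_congr rfl fun q _ => ?_
    have : ((((f.mulModularForm (φ.pow b)).mcast hw :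
        CuspForm (Gamma0 N) (k + 4 * b)) : ℍ → ℂ)) = (f : ℍ → ℂ) * (φ : ℍ → ℂ) ^ b := by
      change (f : ℍ → ℂ) * ((φ.pow b : ModularForm _ _) : ℍ → ℂ) = _
      rw [coe_pow]
    rw [this, mul_slash_SL2, pow_slash_SL2]
  have hp : ∀ m : ℕ, ∃ G : ModularForm 𝒮ℒ (4 * ((Fintype.card ι : ℤ) - m)),
      (G : ℍ → ℂ) = (symPoly x).coeff m := by
    intro m
    rw [← mem_mfSub]
    rcases lt_trichotomy m (Fintype.card ι) with h | h | h
    · have := sym_coeff_mem mfSub mfSub (fun _ => le_rfl) one_mem_mfSub mfSub_mul_mfSub x 4 hpx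
        (Fintype.card ι - m) (by omega) (by omega)
      have h1 : Fintype.card ι - (Fintype.card ι - m) = m := by omega
      rw [h1, Nat.cast_sub h.le] at this
      exact this
    · rw [h, symPoly_coeff_card, sub_self, mul_zero]
      exact one_mem_mfSub
    · rw [Polynomial.coeff_eq_zero_of_natDegree_lt (lt_of_le_of_lt (symPoly_natDegree_le x) h)]
      exact Submodule.zero_mem _
  have hc : ∀ i : ℕ, ∃ G : CuspForm 𝒮ℒ (k * i), 1 ≤ i → i ≤ Fintype.card ι →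
      (G : ℍ → ℂ) = (symPoly y).coeff (Fintype.card ι - i) := by
    intro i
    by_cases h : 1 ≤ i ∧ i ≤ Fintype.card ι
    · obtain ⟨G, hG⟩ := sym_coeff_mem mfSub cfSub cfSub_le_mfSub one_mem_mfSub mfSub_mul_cfSub
        y k hpy i h.1 h.2
      exact ⟨G, fun _ _ => hG⟩
    · exact ⟨0, fun h1 h2 => absurd ⟨h1, h2⟩ h⟩
  choose p hp using hp
  choose t ht using ht
  choose c hc using hc
  have hden : ∑ m ∈ Finset.range (Fintype.card ι + 1),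
      (m : ℂ) • ((p m : ℍ → ℂ) * (φ : ℍ → ℂ) ^ (m - 1))
        = ∏ q ∈ Finset.univ.erase q0, (x q0 - x q) := by
    rw [← sym_den x q0]
    refine Finset.sum_congr rfl fun m _ => ?_
    rw [hp, hx0, Nat.cast_smul_eq_nsmul]
  refine ⟨Fintype.card ι, Fintype.card_pos_iff.2 ⟨q0⟩, p, t, c, ?_, ?_, ?_⟩
  · rw [hden]
    intro h0
    rw [UpperHalfPlane.prod_eq_zero_iff] at h0
    · obtain ⟨q, hq, hq0⟩ := h0
      rw [sub_eq_zero, hx0] at hq0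
      exact (Finset.mem_erase.1 hq).1 ((hg q).1 (hφ _ hq0.symm))
    · intro q _
      exact (ModularForm.translate φ (g q0)).holo'.sub (ModularForm.translate φ (g q)).holo'
  · rw [hden, ← hy0, ← sym_num x y q0]
    refine Finset.sum_congr rfl fun m _ => Finset.sum_congr rfl fun a _ => ?_
    rw [hp, ht, hx0]
  · have := sym_monic_rel y q0
    rw [hy0] at this
    rw [← this]
    congr 1
    refine Finset.sum_congr rfl fun i hi => ?_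
    rw [hc (i + 1) (by omega) (by have := Finset.mem_range.1 hi; omega)]

end Fermat.Agent.S23L
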