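import Mathlib

set_option autoImplicit false

open Filter Topology Set

namespace Fermat.Agent.S23L

/-- Division of holomorphic functions when the quotient is locally bounded. -/
theorem exists_differentiableOn_mul_eq {U : Set ℂ} (hU : IsOpen U) {n d : ℂ → ℂ}
    (hn : DifferentiableOn ℂ n U) (hd : DifferentiableOn ℂ d U)
    (hd0 : ∀ c ∈ U, ∀ᶠ z in 𝓝[≠] c, d z ≠ 0)
    (hb : ∀ c ∈ U, ∃ C : ℝ, ∀ᶠ z in 𝓝[≠] c, ‖n z / d z‖ ≤ C) :
    ∃ G : ℂ → ℂ, DifferentiableOn ℂ G U ∧ ∀ z ∈ U, G z * d z = n z := by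
  set h : ℂ → ℂ := fun z => n z / d z with hh
  set G : ℂ → ℂ := fun z => limUnder (𝓝[≠] z) h with hG
  -- at points where `d ≠ 0`
  have hdiff : ∀ w ∈ U, d w ≠ 0 → DifferentiableAt ℂ h w := fun w hw hdw =>
    ((hn w hw).differentiableAt (hU.mem_nhds hw)).div ((hd w hw).differentiableAt (hU.mem_nhds hw)) hdw
  have hGh : ∀ w ∈ U, d w ≠ 0 → G w = h w := fun w hw hdw =>
    ((hdiff w hw hdw).continuousAt.tendsto.mono_left nhdsWithin_le_nhds).limUnder_eq
  have hev : ∀ w ∈ U, d w ≠ 0 → G =ᶠ[𝓝 w] h := by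
    intro w hw hdw
    have h1 : ∀ᶠ z in 𝓝 w, d z ≠ 0 :=
      ((hd w hw).differentiableAt (hU.mem_nhds hw)).continuousAt.eventually_ne hdw
    filter_upwards [h1, hU.mem_nhds hw] with z hz hzU using hGh z hzU hz
  have hpunct : ∀ c ∈ U, ∀ᶠ z in 𝓝[≠] c, z ∈ U ∧ d z ≠ 0 := fun c hc =>
    (eventually_nhdsWithin_of_eventually_nhds (hU.mem_nhds hc)).and (hd0 c hc)
  -- limit exists
  have hlim : ∀ c ∈ U, Tendsto h (𝓝[≠] c) (𝓝 (G c)) := by
    intro c hc
    refine Complex.tendsto_limUnder_of_differentiable_on_punctured_nhds_of_bounded_under ?_ ?_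
    · filter_upwards [hpunct c hc] with z hz using hdiff z hz.1 hz.2
    · obtain ⟨C, hC⟩ := hb c hc
      refine ⟨C + ‖h c‖, ?_⟩
      rw [eventually_map]
      filter_upwards [hC] with z hz
      exact (norm_sub_le _ _).trans (by gcongr)
  have hGlim : ∀ c ∈ U, Tendsto G (𝓝[≠] c) (𝓝 (G c)) := by
    intro c hc
    refine (hlim c hc).congr' ?_
    filter_upwards [hpunct c hc] with z hz using (hGh z hz.1 hz.2).symm
  have hGan : ∀ c ∈ U, AnalyticAt ℂ G c := by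
    intro c hc
    refine Complex.analyticAt_of_differentiable_on_punctured_nhds_of_continuousAt ?_
      (continuousAt_iff_punctured_nhds.mpr (hGlim c hc))
    filter_upwards [hpunct c hc] with z hz
    exact (hdiff z hz.1 hz.2).congr_of_eventuallyEq (hev z hz.1 hz.2)
  refine ⟨G, fun c hc => (hGan c hc).differentiableAt.differentiableWithinAt, fun c hc => ?_⟩
  have hdc : ContinuousAt d c := ((hd c hc).differentiableAt (hU.mem_nhds hc)).continuousAt
  have hnc : ContinuousAt n c := ((hn c hc).differentiableAt (hU.mem_nhds hc)).continuousAt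
  have h1 : Tendsto (fun z => G z * d z) (𝓝[≠] c) (𝓝 (G c * d c)) :=
    (hGlim c hc).mul (hdc.tendsto.mono_left nhdsWithin_le_nhds)
  have h2 : Tendsto (fun z => G z * d z) (𝓝[≠] c) (𝓝 (n c)) := by
    refine (hnc.tendsto.mono_left nhdsWithin_le_nhds).congr' ?_
    filter_upwards [hpunct c hc] with z hz
    rw [hGh z hz.1 hz.2, hh]
    field_simp [hz.2]
  exact tendsto_nhds_unique h1 h2

/-- Bound for roots of a monic polynomial. -/
theorem norm_le_of_monic_eq {μ : ℕ} (a : ℕ → ℂ) (x : ℂ)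
    (h : x ^ μ + ∑ i ∈ Finset.range μ, a (i + 1) * x ^ (μ - (i + 1)) = 0) :
    ‖x‖ ≤ max 1 (∑ i ∈ Finset.range μ, ‖a (i + 1)‖) := by
  rcases le_or_gt ‖x‖ 1 with h1 | h1
  · exact le_max_of_le_left h1
  refine le_max_of_le_right ?_
  rcases Nat.eq_zero_or_pos μ with rfl | hμ
  · simp at h
  have hx : x ^ μ = -∑ i ∈ Finset.range μ, a (i + 1) * x ^ (μ - (i + 1)) := eq_neg_of_add_eq_zero_left h
  have h2 : ‖x‖ ^ μ ≤ (∑ i ∈ Finset.range μ, ‖a (i + 1)‖) * ‖x‖ ^ (μ - 1) := by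
    rw [← norm_pow, hx, norm_neg, Finset.sum_mul]
    refine (norm_sum_le _ _).trans (Finset.sum_le_sum fun i _ => ?_)
    rw [norm_mul, norm_pow]
    gcongr
    · exact h1.le
    · omega
  have h3 : ‖x‖ ^ μ = ‖x‖ * ‖x‖ ^ (μ - 1) := by
    rw [← pow_succ']; congr 1; omega
  rw [h3] at h2
  exact le_of_mul_le_mul_right h2 (by positivity)

theorem norm_pow_le_of_monic_eq {μ : ℕ} (a : ℕ → ℂ) (x : ℂ)
    (h : x ^ μ + ∑ i ∈ Finset.range μ, a (i + 1) * x ^ (μ - (i + 1)) = 0)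
    (hS : ∑ i ∈ Finset.range μ, ‖a (i + 1)‖ ≤ 1) :
    ‖x‖ ^ μ ≤ ∑ i ∈ Finset.range μ, ‖a (i + 1)‖ := by
  have h1 : ‖x‖ ≤ 1 := (norm_le_of_monic_eq a x h).trans (max_le le_rfl hS)
  have hx : x ^ μ = -∑ i ∈ Finset.range μ, a (i + 1) * x ^ (μ - (i + 1)) := eq_neg_of_add_eq_zero_left h
  rw [← norm_pow, hx, norm_neg]
  refine (norm_sum_le _ _).trans (Finset.sum_le_sum fun i _ => ?_)
  rw [norm_mul, norm_pow]
  exact mul_le_of_le_one_right (norm_nonneg _) (pow_le_one₀ (norm_nonneg _) h1)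

end Fermat.Agent.S23L
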