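import Mathlib
import Fermat.Agent.S23.QF
import Fermat.Agent.S23.Div

set_option autoImplicit false

open UpperHalfPlane ModularForm CongruenceSubgroup Function Filter Topology
open scoped MatrixGroups Manifold

namespace Fermat.Agent.S23L

theorem monic_div {μ : ℕ} (a : ℕ → ℂ) (n d : ℂ) (hd : d ≠ 0)
    (h : n ^ μ + ∑ i ∈ Finset.range μ, a (i + 1) * n ^ (μ - (i + 1)) * d ^ (i + 1) = 0) :
    (n / d) ^ μ + ∑ i ∈ Finset.range μ, a (i + 1) * (n / d) ^ (μ - (i + 1)) = 0 := by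
  have h1 : (n / d) ^ μ + ∑ i ∈ Finset.range μ, a (i + 1) * (n / d) ^ (μ - (i + 1))
      = (n ^ μ + ∑ i ∈ Finset.range μ, a (i + 1) * n ^ (μ - (i + 1)) * d ^ (i + 1)) / d ^ μ := by
    rw [add_div, div_pow, Finset.sum_div]
    congr 1
    refine Finset.sum_congr rfl fun i hi => ?_
    have hi' : i + 1 ≤ μ := Finset.mem_range.mp hi
    have h2 : d ^ μ = d ^ (μ - (i + 1)) * d ^ (i + 1) := by
      rw [← pow_add]; congr 1; omega
    rw [h2, div_pow]
    field_simp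
  rw [h1, h, zero_div]

theorem monic_scale {μ : ℕ} (k : ℤ) (a : ℕ → ℂ) (y d : ℂ) (hd : d ≠ 0)
    (h : y ^ μ + ∑ i ∈ Finset.range μ, (d ^ (k * ((i + 1 : ℕ) : ℤ)) * a (i + 1)) * y ^ (μ - (i + 1)) = 0) :
    (y * d ^ (-k)) ^ μ + ∑ i ∈ Finset.range μ, a (i + 1) * (y * d ^ (-k)) ^ (μ - (i + 1)) = 0 := by
  have h1 : (y * d ^ (-k)) ^ μ + ∑ i ∈ Finset.range μ, a (i + 1) * (y * d ^ (-k)) ^ (μ - (i + 1))
      = (y ^ μ + ∑ i ∈ Finset.range μ, (d ^ (k * ((i + 1 : ℕ) : ℤ)) * a (i + 1)) * y ^ (μ - (i + 1)))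
        * (d ^ (-k)) ^ μ := by
    rw [add_mul, mul_pow, Finset.sum_mul]
    congr 1
    refine Finset.sum_congr rfl fun i hi => ?_
    have hi' : i + 1 ≤ μ := Finset.mem_range.mp hi
    have h2 : (d ^ (-k)) ^ μ = (d ^ (-k)) ^ (μ - (i + 1)) * (d ^ (-k)) ^ (i + 1) := by
      rw [← pow_add]; congr 1; omega
    have h3 : d ^ (k * ((i + 1 : ℕ) : ℤ)) * (d ^ (-k)) ^ (i + 1) = 1 := by
      rw [← zpow_natCast (d ^ (-k)), ← zpow_mul, ← zpow_add₀ hd]
      simp
    rw [h2, mul_pow]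
    linear_combination (a (i + 1) * y ^ (μ - (i + 1)) * (d ^ (-k)) ^ (μ - (i + 1))) * (-h3)
  rw [h1, h, zero_mul]

/-- holomorphic quotient -/
theorem exists_mdiff_mul_eq (num den : ℍ → ℂ) (hnum : MDiff num) (hden : MDiff den)
    (hden0 : den ≠ 0) (μ : ℕ) (c : ℕ → ℍ → ℂ) (hc : ∀ i, MDiff (c i))
    (heq : num ^ μ + ∑ i ∈ Finset.range μ, c (i + 1) * num ^ (μ - (i + 1)) * den ^ (i + 1) = 0) :
    ∃ g : ℍ → ℂ, MDiff g ∧ g * den = num := by
  have hU : IsOpen {z : ℂ | 0 < z.im} := isOpen_upperHalfPlaneSet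
  have hn := UpperHalfPlane.mdifferentiable_iff.mp hnum
  have hd := UpperHalfPlane.mdifferentiable_iff.mp hden
  have hd0 : ∀ z₀ ∈ {z : ℂ | 0 < z.im}, ∀ᶠ z in 𝓝[≠] z₀, (den ∘ ofComplex) z ≠ 0 := by
    intro z₀ hz₀
    rcases ((hd.analyticOnNhd hU) z₀ hz₀).eventually_eq_zero_or_eventually_ne_zero with h | h
    · exfalso
      apply hden0
      have := (hd.analyticOnNhd hU).eqOn_zero_of_preconnected_of_eventuallyEq_zero
        (Complex.isConnected_of_upperHalfPlane subset_rfl (by grind)).isPreconnected hz₀ h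
      ext τ
      have h2 := this τ.im_pos
      simpa using h2
    · exact h
  have hb : ∀ z₀ ∈ {z : ℂ | 0 < z.im}, ∃ C : ℝ, ∀ᶠ z in 𝓝[≠] z₀,
      ‖(num ∘ ofComplex) z / (den ∘ ofComplex) z‖ ≤ C := by
    intro z₀ hz₀
    set S : ℂ → ℝ := fun z => ∑ i ∈ Finset.range μ, ‖(c (i + 1) ∘ ofComplex) z‖ with hS
    have hScont : ContinuousAt S z₀ := by
      refine tendsto_finsetSum _ fun i _ => ?_
      exact (((UpperHalfPlane.mdifferentiable_iff.mp (hc (i + 1))) z₀ hz₀).differentiableAt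
        (hU.mem_nhds hz₀)).continuousAt.norm
    refine ⟨max 1 (S z₀ + 1), ?_⟩
    have h1 : ∀ᶠ z in 𝓝 z₀, S z < S z₀ + 1 :=
      hScont.eventually_lt continuousAt_const (lt_add_one _)
    filter_upwards [hd0 z₀ hz₀, eventually_nhdsWithin_of_eventually_nhds h1] with z hz hz1
    have h2 := congrFun heq (ofComplex z)
    simp only [Pi.add_apply, Pi.pow_apply, Finset.sum_apply, Pi.mul_apply, Pi.zero_apply] at h2
    have h3 := monic_div (fun i => c i (ofComplex z)) _ _ hz h2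
    exact (norm_le_of_monic_eq (fun i => c i (ofComplex z)) _ h3).trans (max_le_max le_rfl hz1.le)
  obtain ⟨G, hG, hGd⟩ := exists_differentiableOn_mul_eq hU hn hd hd0 hb
  refine ⟨fun τ => G τ, ?_, ?_⟩
  · rw [UpperHalfPlane.mdifferentiable_iff]
    refine hG.congr fun z hz => ?_
    simp [ofComplex_apply_of_im_pos hz]
  · ext τ
    have := hGd τ τ.im_pos
    simpa using this

theorem exists_cuspForm_of_certificate (N : ℕ) [NeZero N] (k K : ℤ) (num den : ℍ → ℂ)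
    (hnum : MDiff num) (hden : MDiff den) (hden0 : den ≠ 0)
    (hnumΓ : ∀ γ ∈ Gamma0 N, num ∣[K + k] γ = num) (hdenΓ : ∀ γ ∈ Gamma0 N, den ∣[K] γ = den)
    (μ : ℕ) (hμ : 0 < μ) (c : (i : ℕ) → CuspForm 𝒮ℒ (k * i))
    (heq : num ^ μ + ∑ i ∈ Finset.range μ,
      (c (i + 1) : ℍ → ℂ) * num ^ (μ - (i + 1)) * den ^ (i + 1) = 0) :
    ∃ g : CuspForm (Gamma0 N) k, (g : ℍ → ℂ) * den = num := by
  obtain ⟨g, hg, hgd⟩ := exists_mdiff_mul_eq num den hnum hden hden0 μ (fun i => c i)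
    (fun i => (c i).holo') heq
  -- monic identity for g
  have hmon : g ^ μ + ∑ i ∈ Finset.range μ, (c (i + 1) : ℍ → ℂ) * g ^ (μ - (i + 1)) = 0 := by
    have h1 : den ^ μ * (g ^ μ + ∑ i ∈ Finset.range μ, (c (i + 1) : ℍ → ℂ) * g ^ (μ - (i + 1)))
        = 0 := by
      rw [← heq, ← hgd, mul_add, Finset.mul_sum, mul_pow, mul_comm (den ^ μ)]
      congr 1
      refine Finset.sum_congr rfl fun i hi => ?_
      have hi' : i + 1 ≤ μ := Finset.mem_range.mp hi
      have h2 : den ^ μ = den ^ (μ - (i + 1)) * den ^ (i + 1) := by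
        rw [← pow_add]; congr 1; omega
      rw [h2, mul_pow]
      ring
    have hm : MDiff (g ^ μ + ∑ i ∈ Finset.range μ, (c (i + 1) : ℍ → ℂ) * g ^ (μ - (i + 1))) :=
      (hg.pow μ).add (MDifferentiable.sum fun i _ => (c (i + 1)).holo'.mul (hg.pow _))
    rcases (UpperHalfPlane.mul_eq_zero_iff (hden.pow μ) hm).mp h1 with h | h
    · exfalso
      apply hden0
      ext τ
      have := congrFun h τ
      simpa using pow_eq_zero_iff (by omega) |>.mp this
    · exact h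
  -- slash invariance
  have hslash : ∀ γ ∈ Gamma0 N, g ∣[k] γ = g := by
    intro γ hγ
    have h1 : (g ∣[k] γ - g) * den = 0 := by
      rw [sub_mul, hgd]
      nth_rewrite 1 [← hdenΓ γ hγ]
      rw [← mul_slash_SL2, hgd, add_comm, hnumΓ γ hγ, sub_self]
    rcases (UpperHalfPlane.mul_eq_zero_iff ((hg.slash k _).sub hg) hden).mp h1 with h | h
    · exact sub_eq_zero.mp h
    · exact absurd h hden0
  refine ⟨{ toFun := g, slash_action_eq' := ?_, holo' := hg, zero_at_cusps' := ?_ }, hgd⟩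
  · rintro _ ⟨γ, hγ, rfl⟩
    exact hslash γ hγ
  · intro cu hcu
    rw [Subgroup.IsArithmetic.isCusp_iff_isCusp_SL2Z] at hcu
    rw [OnePoint.isZeroAt_iff_forall_SL2Z hcu]
    intro γ _
    -- the translated function satisfies the same monic equation
    have hx : ∀ τ : ℍ, ((g ∣[k] γ) τ) ^ μ + ∑ i ∈ Finset.range μ,
        (c (i + 1) τ) * ((g ∣[k] γ) τ) ^ (μ - (i + 1)) = 0 := by
      intro τ
      rw [SL_slash_apply]
      refine monic_scale k (fun i => c i τ) _ _ (denom_ne_zero _ _) ?_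
      have h2 := congrFun hmon (γ • τ)
      simp only [Pi.add_apply, Pi.pow_apply, Finset.sum_apply, Pi.mul_apply, Pi.zero_apply] at h2
      rw [← h2]
      congr 1
      refine Finset.sum_congr rfl fun i _ => ?_
      congr 1
      have hmem : (Matrix.SpecialLinearGroup.mapGL ℝ γ) ∈ 𝒮ℒ := ⟨γ, rfl⟩
      exact (SlashInvariantForm.slash_action_eqn'' (c (i + 1)) hmem τ).symm
    set S : ℍ → ℝ := fun τ => ∑ i ∈ Finset.range μ, ‖c (i + 1) τ‖ with hS
    have hS0 : Tendsto S atImInfty (𝓝 0) := by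
      have : Tendsto S atImInfty (𝓝 (∑ i ∈ Finset.range μ, (0 : ℝ))) := by
        refine tendsto_finsetSum _ fun i _ => ?_
        have := (CuspFormClass.zero_at_infty (c (i + 1)))
        exact tendsto_zero_iff_norm_tendsto_zero.mp this
      simpa using this
    show Tendsto (g ∣[k] γ) atImInfty (𝓝 0)
    rw [NormedAddGroup.tendsto_nhds_zero]
    intro ε hε
    have hδ : 0 < min 1 (ε ^ μ) := lt_min one_pos (by positivity)
    filter_upwards [hS0.eventually_lt_const hδ] with τ hτ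
    have h1 : S τ ≤ 1 := (hτ.trans_le (min_le_left _ _)).le
    have h2 := norm_pow_le_of_monic_eq (fun i => c i τ) _ (hx τ) h1
    exact lt_of_pow_lt_pow_left₀ μ hε.le (h2.trans_lt (hτ.trans_le (min_le_right _ _)))

end Fermat.Agent.S23L
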