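import Mathlib
import Fermat.Agent.S23.LO
import Fermat.Agent.S23.ThmB
import Fermat.Agent.S23.PHI
import Fermat.Agent.S23.ThmA

set_option autoImplicit false

open UpperHalfPlane ModularForm CongruenceSubgroup Function
open scoped MatrixGroups Manifold

namespace Fermat.Agent.S23L

/-! ### slash invariance under `Γ₀(N)` at the level of functions -/

def SlInv (N : ℕ) (w : ℤ) (F : ℍ → ℂ) : Prop := ∀ γ ∈ Gamma0 N, F ∣[w] γ = F

namespace SlInv

variable {N : ℕ} {w w₁ w₂ : ℤ} {F G : ℍ → ℂ}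

theorem mul (hF : SlInv N w₁ F) (hG : SlInv N w₂ G) : SlInv N (w₁ + w₂) (F * G) := fun γ hγ => by
  rw [mul_slash_SL2, hF γ hγ, hG γ hγ]

theorem one : SlInv N 0 (1 : ℍ → ℂ) := fun γ _ => is_invariant_one γ

theorem cast (h : w₁ = w₂) (hF : SlInv N w₁ F) : SlInv N w₂ F := h ▸ hF

theorem pow (hF : SlInv N w F) (n : ℕ) : SlInv N (w * n) (F ^ n) := by
  induction n with
  | zero => simpa using one
  | succ n ih => rw [pow_succ]; exact (ih.mul hF).cast (by push_cast; ring)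

theorem zero : SlInv N w (0 : ℍ → ℂ) := fun _ _ => SlashAction.zero_slash _ _

theorem add (hF : SlInv N w F) (hG : SlInv N w G) : SlInv N w (F + G) := fun γ hγ => by
  rw [SlashAction.add_slash, hF γ hγ, hG γ hγ]

theorem smul (c : ℂ) (hF : SlInv N w F) : SlInv N w (c • F) := fun γ hγ => by
  rw [SL_smul_slash, hF γ hγ]

theorem sum {ι : Type*} (s : Finset ι) {P : ι → ℍ → ℂ} (h : ∀ i ∈ s, SlInv N w (P i)) :
    SlInv N w (∑ i ∈ s, P i) := by
  classical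
  induction s using Finset.induction_on with
  | empty => simpa using zero
  | insert a s ha ih =>
    rw [Finset.sum_insert ha]
    exact (h a (Finset.mem_insert_self _ _)).add (ih fun i hi => h i (Finset.mem_insert_of_mem hi))

theorem of_levelOne (A : ModularForm 𝒮ℒ w) : SlInv N w A := fun γ _ =>
  A.slash_action_eq' _ ⟨γ, rfl⟩

theorem of_Gamma0 (A : ModularForm (Gamma0 N) w) : SlInv N w A := fun γ hγ =>
  A.slash_action_eq' _ ⟨γ, hγ, rfl⟩

end SlInv

/-! ### the relation "`F'` is the `σ`-conjugate of `F`" -/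

structure Rel (σ : ℂ →+* ℂ) (F F' : ℍ → ℂ) : Prop where
  l : IsQF F
  r : IsQF F'
  eq : qx F' = (qx F).map σ

theorem map_smul_ps (σ : ℂ →+* ℂ) (c : ℂ) (P : PowerSeries ℂ) :
    (c • P).map σ = σ c • P.map σ := by
  ext n; simp

namespace Rel

variable {σ : ℂ →+* ℂ} {F F' G G' : ℍ → ℂ}

theorem add (h₁ : Rel σ F F') (h₂ : Rel σ G G') : Rel σ (F + G) (F' + G') :=
  ⟨h₁.l.add h₂.l, h₁.r.add h₂.r, by rw [qx_add h₁.r h₂.r, qx_add h₁.l h₂.l, map_add, h₁.eq, h₂.eq]⟩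

theorem mul (h₁ : Rel σ F F') (h₂ : Rel σ G G') : Rel σ (F * G) (F' * G') :=
  ⟨h₁.l.mul h₂.l, h₁.r.mul h₂.r, by rw [qx_mul h₁.r h₂.r, qx_mul h₁.l h₂.l, map_mul, h₁.eq, h₂.eq]⟩

theorem zero : Rel σ 0 0 := ⟨IsQF.zero, IsQF.zero, by simp [qx_zero]⟩

theorem one : Rel σ 1 1 := ⟨IsQF.one, IsQF.one, by simp [qx_one]⟩

theorem pow (h : Rel σ F F') (n : ℕ) : Rel σ (F ^ n) (F' ^ n) := by
  induction n with
  | zero => simpa using one
  | succ n ih => rw [pow_succ, pow_succ]; exact ih.mul h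

theorem natSmul (m : ℕ) (h : Rel σ F F') : Rel σ ((m : ℂ) • F) ((m : ℂ) • F') :=
  ⟨h.l.smul _, h.r.smul _, by rw [qx_smul _ h.r, qx_smul _ h.l, map_smul_ps, h.eq, map_natCast]⟩

theorem sum {ι : Type*} (s : Finset ι) {P P' : ι → ℍ → ℂ} (h : ∀ i ∈ s, Rel σ (P i) (P' i)) :
    Rel σ (∑ i ∈ s, P i) (∑ i ∈ s, P' i) := by
  classical
  induction s using Finset.induction_on with
  | empty => simpa using zero
  | insert a s ha ih =>
    rw [Finset.sum_insert ha, Finset.sum_insert ha]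
    exact (h a (Finset.mem_insert_self _ _)).add (ih fun i hi => h i (Finset.mem_insert_of_mem hi))

end Rel

theorem map_of_IntPS (σ : ℂ →+* ℂ) {P : PowerSeries ℂ} (h : P ∈ IntPS) : P.map σ = P := by
  ext n
  obtain ⟨m, hm⟩ := h n
  rw [PowerSeries.coeff_map, hm, map_intCast]

theorem cusp_transport (σ : ℂ →+* ℂ) {K : ℤ} (A : CuspForm 𝒮ℒ K) :
    ∃ A' : CuspForm 𝒮ℒ K, qx A' = (qx A).map σ := by
  obtain ⟨B, hB⟩ := levelOne_transport σ (CuspForm.toModularFormₗ A)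
  have h0 : (qExpansion 1 B).coeff 0 = 0 := by
    rw [hB, PowerSeries.coeff_map]
    have : (qExpansion 1 (CuspForm.toModularFormₗ A)).coeff 0 = 0 :=
      CuspFormClass.qExpansion_coeff_zero A one_pos one_mem_strictPeriods_SL
    rw [this, map_zero]
  exact ⟨toCuspForm B h0, hB⟩

/-- algebra: the certificate equation follows from the monic equation. -/
theorem cert_eq {R : Type*} [CommRing R] (μ : ℕ) (f den : R) (c : ℕ → R)
    (h : f ^ μ + ∑ i ∈ Finset.range μ, c (i + 1) * f ^ (μ - (i + 1)) = 0) :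
    (f * den) ^ μ + ∑ i ∈ Finset.range μ, c (i + 1) * (f * den) ^ (μ - (i + 1)) * den ^ (i + 1)
      = 0 := by
  have h1 : (f * den) ^ μ + ∑ i ∈ Finset.range μ,
      c (i + 1) * (f * den) ^ (μ - (i + 1)) * den ^ (i + 1)
      = den ^ μ * (f ^ μ + ∑ i ∈ Finset.range μ, c (i + 1) * f ^ (μ - (i + 1))) := by
    rw [mul_add, Finset.mul_sum, mul_pow, mul_comm (den ^ μ)]
    congr 1
    refine Finset.sum_congr rfl fun i hi => ?_
    have hi' : i + 1 ≤ μ := Finset.mem_range.mp hi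
    have h2 : den ^ μ = den ^ (μ - (i + 1)) * den ^ (i + 1) := by
      rw [← pow_add]; congr 1; omega
    rw [h2, mul_pow]
    ring
  rw [h1, h, mul_zero]

theorem transport (N : ℕ) [NeZero N] (k : ℤ) (σ : ℂ →+* ℂ) (f : CuspForm (Gamma0 N) k) :
    ∃ f' : CuspForm (Gamma0 N) k, qx f' = (qx f).map σ := by
  obtain ⟨φ, hφint, hφstab⟩ := exists_phi N
  obtain ⟨μ, hμ, p, t, c, hden0, hfd, hmon⟩ := exists_certificate N k φ hφstab f
  choose p' hp' using fun m => levelOne_transport σ (p m)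
  choose t' ht' using fun b => levelOne_transport σ (t b)
  choose c' hc' using fun i => cusp_transport σ (c i)
  have hΦ : Rel σ φ φ := ⟨IsQF.of_Gamma0 φ, IsQF.of_Gamma0 φ, (map_of_IntPS σ hφint).symm⟩
  have hp : ∀ m, Rel σ (p m) (p' m) := fun m => ⟨IsQF.of_levelOne _, IsQF.of_levelOne _, hp' m⟩
  have ht : ∀ b, Rel σ (t b) (t' b) := fun b => ⟨IsQF.of_levelOne _, IsQF.of_levelOne _, ht' b⟩
  have hc : ∀ i, Rel σ (c i) (c' i) := fun i =>
    ⟨IsQF.of_levelOne_cusp _, IsQF.of_levelOne_cusp _, hc' i⟩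
  set den : ℍ → ℂ := ∑ m ∈ Finset.range (μ + 1), (m : ℂ) • ((p m : ℍ → ℂ) * (φ : ℍ → ℂ) ^ (m - 1))
    with hden
  set num : ℍ → ℂ := ∑ m ∈ Finset.range (μ + 1), ∑ a ∈ Finset.range m,
            (p m : ℍ → ℂ) * (φ : ℍ → ℂ) ^ a * (t (m - 1 - a) : ℍ → ℂ) with hnum
  set den' : ℍ → ℂ := ∑ m ∈ Finset.range (μ + 1),
    (m : ℂ) • ((p' m : ℍ → ℂ) * (φ : ℍ → ℂ) ^ (m - 1)) with hden'
  set num' : ℍ → ℂ := ∑ m ∈ Finset.range (μ + 1), ∑ a ∈ Finset.range m,
            (p' m : ℍ → ℂ) * (φ : ℍ → ℂ) ^ a * (t' (m - 1 - a) : ℍ → ℂ) with hnum'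
  have hRden : Rel σ den den' := Rel.sum _ fun m _ => ((hp m).mul (hΦ.pow _)).natSmul m
  have hRnum : Rel σ num num' :=
    Rel.sum _ fun m _ => Rel.sum _ fun a _ => ((hp m).mul (hΦ.pow _)).mul (ht _)
  have hσinj : Function.Injective (PowerSeries.map σ) := by
    intro a b hab
    ext n
    have := congrArg (PowerSeries.coeff n) hab
    exact σ.injective (by simpa using this)
  have hden'0 : den' ≠ 0 := by
    intro h
    apply hden0
    have h1 : (qx den).map σ = 0 := by rw [← hRden.eq, h, qx_zero]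
    have h2 : qx den = 0 := hσinj (by rw [h1, map_zero])
    exact (qx_eq_zero_iff hRden.l).mp h2
  have hL : num ^ μ + ∑ i ∈ Finset.range μ,
      (c (i + 1) : ℍ → ℂ) * num ^ (μ - (i + 1)) * den ^ (i + 1) = 0 := by
    rw [← hfd]
    exact cert_eq μ _ _ (fun i => (c i : ℍ → ℂ)) hmon
  have hRL : Rel σ (num ^ μ + ∑ i ∈ Finset.range μ,
      (c (i + 1) : ℍ → ℂ) * num ^ (μ - (i + 1)) * den ^ (i + 1))
      (num' ^ μ + ∑ i ∈ Finset.range μ,
      (c' (i + 1) : ℍ → ℂ) * num' ^ (μ - (i + 1)) * den' ^ (i + 1)) :=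
    (hRnum.pow μ).add (Rel.sum _ fun i _ => ((hc _).mul (hRnum.pow _)).mul (hRden.pow _))
  have hL' : num' ^ μ + ∑ i ∈ Finset.range μ,
      (c' (i + 1) : ℍ → ℂ) * num' ^ (μ - (i + 1)) * den' ^ (i + 1) = 0 := by
    rw [← qx_eq_zero_iff hRL.r, hRL.eq, hL, qx_zero, map_zero]
  have hφS : SlInv N 4 φ := SlInv.of_Gamma0 φ
  have hdenS : SlInv N (4 * ((μ : ℤ) - 1)) den' := by
    refine SlInv.sum _ fun m _ => ?_
    rcases Nat.eq_zero_or_pos m with rfl | hm
    · simpa using SlInv.zero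
    · refine SlInv.smul _ (((SlInv.of_levelOne (p' m)).mul (hφS.pow (m - 1))).cast ?_)
      rw [Nat.cast_sub hm]; push_cast; ring
  have hnumS : SlInv N (4 * ((μ : ℤ) - 1) + k) num' := by
    refine SlInv.sum _ fun m _ => SlInv.sum _ fun a ha => ?_
    have ha' : a < m := Finset.mem_range.mp ha
    refine (((SlInv.of_levelOne (p' m)).mul (hφS.pow a)).mul (SlInv.of_levelOne (t' (m - 1 - a)))).cast ?_
    have : ((m - 1 - a : ℕ) : ℤ) = (m : ℤ) - 1 - a := by omega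
    rw [this]; ring
  obtain ⟨g, hg⟩ := exists_cuspForm_of_certificate N k (4 * ((μ : ℤ) - 1)) num' den'
    hRnum.r.holo hRden.r.holo hden'0 hnumS hdenS μ hμ c' hL'
  refine ⟨g, ?_⟩
  have hgQ : IsQF (g : ℍ → ℂ) := IsQF.of_Gamma0_cusp g
  have hfQ : IsQF (f : ℍ → ℂ) := IsQF.of_Gamma0_cusp f
  have h1 : qx g * qx den' = (qx f).map σ * qx den' := by
    rw [← qx_mul hgQ hRden.r, hg, hRnum.eq, ← hfd, qx_mul hfQ hRden.l, map_mul, hRden.eq]
  have h2 : qx den' ≠ 0 := fun h => hden'0 ((qx_eq_zero_iff hRden.r).mp h)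
  exact mul_right_cancel₀ h2 h1

end Fermat.Agent.S23L
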