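import Mathlib
import Fermat.Prelude.Def_CuspForm_IntegralStructure
import Fermat.Prelude.Thm_ModularForm_sturm_bound_Gamma0
import Fermat.Agent.S23.Transport
import Fermat.Agent.S23.ECore
import Fermat.Agent.S23.Descent

set_option autoImplicit false

open UpperHalfPlane ModularForm CongruenceSubgroup Function
open scoped MatrixGroups Manifold

namespace Fermat.Agent.S23L

/-- the `n`-th `q`-coefficient as a linear functional. -/
noncomputable def coeffL (N : ℕ) [NeZero N] (k : ℤ) (n : ℕ) : CuspForm (Gamma0 N) k →ₗ[ℂ] ℂ where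
  toFun f := (qx f).coeff n
  map_add' f g := by
    rw [FunLike.coe_add, qx_add (IsQF.of_Gamma0_cusp f) (IsQF.of_Gamma0_cusp g), map_add]
  map_smul' c f := by
    rw [FunLike.coe_smul, qx_smul c (IsQF.of_Gamma0_cusp f), PowerSeries.coeff_smul]
    rfl

theorem coeffL_apply (N : ℕ) [NeZero N] (k : ℤ) (n : ℕ) (f : CuspForm (Gamma0 N) k) :
    coeffL N k n f = (qx f).coeff n := rfl

theorem cusp_eq_zero_of_coeff (N : ℕ) [NeZero N] (k : ℤ) (f : CuspForm (Gamma0 N) k)
    (h : ∀ n : ℕ, n ≤ (k * (Gamma0 N).index).toNat / 12 → (qx f).coeff n = 0) : f = 0 := by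
  have h1 : CuspForm.toModularFormₗ f = 0 := ModularForm.sturm_bound_Gamma0 N _ h
  ext z
  have := congrArg (fun g : ModularForm (Gamma0 N) k => g z) h1
  simpa using this

instance finiteDimensional_cusp (N : ℕ) [NeZero N] (k : ℤ) :
    FiniteDimensional ℂ (CuspForm (Gamma0 N) k) := by
  set B := (k * (Gamma0 N).index).toNat / 12 with hB
  let T : CuspForm (Gamma0 N) k →ₗ[ℂ] (Fin (B + 1) → ℂ) :=
    LinearMap.pi fun i => coeffL N k i
  have hT : Function.Injective T := by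
    rw [injective_iff_map_eq_zero]
    intro f hf
    refine cusp_eq_zero_of_coeff N k f fun n hn => ?_
    have := congrFun hf ⟨n, Nat.lt_succ_of_le hn⟩
    rw [← coeffL_apply]
    simpa [T] using this
  exact FiniteDimensional.of_injective T hT

theorem SpanInt_sum {ι : Type*} (s : Finset ι) {P : ι → PowerSeries ℂ}
    (h : ∀ i ∈ s, P i ∈ SpanInt) : ∑ i ∈ s, P i ∈ SpanInt := SpanInt.sum_mem h

/-- a pair (function, membership of its expansion in the span of integral series) -/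
structure Good (F : ℍ → ℂ) : Prop where
  q : IsQF F
  mem : qx F ∈ SpanInt

namespace Good

variable {F G : ℍ → ℂ}

theorem mul (h₁ : Good F) (h₂ : Good G) : Good (F * G) :=
  ⟨h₁.q.mul h₂.q, by rw [qx_mul h₁.q h₂.q]; exact SpanInt_mul h₁.mem h₂.mem⟩

theorem pow (h : Good F) (n : ℕ) : Good (F ^ n) :=
  ⟨h.q.pow n, by rw [qx_pow h.q]; exact SpanInt_pow h.mem n⟩

theorem smul (c : ℂ) (h : Good F) : Good (c • F) :=
  ⟨h.q.smul c, by rw [qx_smul c h.q]; exact SpanInt.smul_mem _ h.mem⟩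

theorem sum {ι : Type*} (s : Finset ι) {P : ι → ℍ → ℂ} (h : ∀ i ∈ s, Good (P i)) :
    Good (∑ i ∈ s, P i) :=
  ⟨IsQF.sum s fun i hi => (h i hi).q, by
    rw [qx_sum s fun i hi => (h i hi).q]; exact SpanInt.sum_mem fun i hi => (h i hi).mem⟩

theorem of_levelOne {K : ℤ} (A : ModularForm 𝒮ℒ K) : Good A :=
  ⟨IsQF.of_levelOne A, levelOne_qExpansion_mem_span A⟩

theorem of_levelOne_cusp {K : ℤ} (A : CuspForm 𝒮ℒ K) : Good A :=
  of_levelOne (CuspForm.toModularFormₗ A)

end Good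

/-- bounded denominators for cusp forms with rational `q`-expansion. -/
theorem exists_smul_integral (N : ℕ) [NeZero N] (k : ℤ) (f : CuspForm (Gamma0 N) k)
    (hf : qx f ∈ RatPS) : ∃ M : ℕ, M ≠ 0 ∧ (M : ℂ) • qx f ∈ IntPS := by
  obtain ⟨φ, hφint, hφstab⟩ := exists_phi N
  obtain ⟨μ, hμ, p, t, c, hden0, hfd, hmon⟩ := exists_certificate N k φ hφstab f
  have hΦ : Good φ := ⟨IsQF.of_Gamma0 φ, SpanInt_of_IntPS hφint⟩
  have hfQ : IsQF (f : ℍ → ℂ) := IsQF.of_Gamma0_cusp f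
  set den : ℍ → ℂ := ∑ m ∈ Finset.range (μ + 1), (m : ℂ) • ((p m : ℍ → ℂ) * (φ : ℍ → ℂ) ^ (m - 1))
    with hden
  set num : ℍ → ℂ := ∑ m ∈ Finset.range (μ + 1), ∑ a ∈ Finset.range m,
            (p m : ℍ → ℂ) * (φ : ℍ → ℂ) ^ a * (t (m - 1 - a) : ℍ → ℂ) with hnum
  have hGden : Good den := Good.sum _ fun m _ => ((Good.of_levelOne (p m)).mul (hΦ.pow _)).smul _
  have hGnum : Good num := Good.sum _ fun m _ => Good.sum _ fun a _ =>
    ((Good.of_levelOne (p m)).mul (hΦ.pow _)).mul (Good.of_levelOne _)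
  refine exists_smul_mem_IntPS (qx f) hf μ (fun i => qx (c i))
    (fun i => (Good.of_levelOne_cusp (c i)).mem) ?_ (qx den) (qx num) hGden.mem hGnum.mem
    (fun h => hden0 ((qx_eq_zero_iff hGden.q).mp h)) (by rw [← qx_mul hfQ hGden.q, hfd])
  have h := congrArg qx hmon
  rw [qx_zero, qx_add (hfQ.pow μ) (IsQF.sum _ fun i _ => (IsQF.of_levelOne_cusp _).mul (hfQ.pow _)),
    qx_pow hfQ, qx_sum _ fun i _ => (IsQF.of_levelOne_cusp _).mul (hfQ.pow _)] at h
  rw [← h]
  congr 1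
  refine Finset.sum_congr rfl fun i _ => ?_
  rw [qx_mul (IsQF.of_levelOne_cusp _) (hfQ.pow _), qx_pow hfQ]

theorem hasIntegralStructure (N : ℕ) [NeZero N] (k : ℤ) : CuspForm.HasIntegralStructure N k := by
  unfold CuspForm.HasIntegralStructure
  have h := span_rational_eq_top (coeffL N k)
    (fun f hf => cusp_eq_zero_of_coeff N k f fun n _ => hf n)
    (fun σ f => by
      obtain ⟨f', hf'⟩ := transport N k σ f
      exact ⟨f', fun n => by rw [coeffL_apply, coeffL_apply, hf', PowerSeries.coeff_map]⟩)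
  rw [eq_top_iff, ← h, Submodule.span_le]
  intro f hf
  obtain ⟨M, hM0, hM⟩ := exists_smul_integral N k f hf
  have hMc : (M : ℂ) ≠ 0 := by exact_mod_cast hM0
  have h1 : f = (M : ℂ)⁻¹ • ((M : ℂ) • f) := by rw [smul_smul, inv_mul_cancel₀ hMc, one_smul]
  rw [h1]
  refine Submodule.smul_mem _ _ (Submodule.subset_span (Submodule.subset_span ?_))
  intro n
  obtain ⟨m, hm⟩ := hM n
  refine ⟨m, ?_⟩
  rw [← hm, ← qx_smul _ (IsQF.of_Gamma0_cusp f)]
  rfl

end Fermat.Agent.S23L
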